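import Fermat.Agent.EC.Dichotomy
import Fermat.Agent.CFT.Density.Places
import Fermat.Prelude.Def_EllipticCurve_ZeroComponentAt
import Fermat.Prelude.Def_ExtCitation_AdmissibleExtension

/-!
# Local lemmas for Mazur's descent

Points with nonsingular reduction fixed by Frobenius are few, inertia moves odd torsion into `E₀`,
and the cyclotomic exponent of the frozen admissibility predicate is the cyclotomic character,
nontrivial on inertia at `p`.
-/

set_option autoImplicit false

open scoped Classical Pointwise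
open WeierstrassCurve WeierstrassCurve.Affine
open Fermat.EC Fermat.EC.Val Fermat.EC.Red Fermat.EC.Node
open scoped WeierstrassCurve.Affine

noncomputable section

namespace Fermat.HT.Mazur

local notation "ℚbar" => AlgebraicClosure ℚ
local notation "Γℚ" => (AlgebraicClosure ℚ ≃ₐ[ℚ] AlgebraicClosure ℚ)

variable {W : WeierstrassCurve ℤ} {A : ValuationSubring ℚbar} {q : ℕ}

/-- An element of the place has nonzero residue iff it is not of positive valuation. -/
lemma residue_ne_zero_iff (h : IsPlace A q) {z : ℚbar} (hz : z ∈ A) :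
    IsLocalRing.residue A ⟨z, hz⟩ ≠ 0 ↔ ¬ Gt A q z 0 := by
  rw [Ne, IsLocalRing.residue_eq_zero_iff, ← A.coe_mem_nonunits_iff, nonunit_iff_gt h]

/-- The frozen component predicate `InZeroComponentAt` is `InE0`. -/
theorem inZeroComponentAt_iff (h : IsPlace A q) (P : (overQbar W).Point) :
    W.InZeroComponentAt A P ↔ InE0 A q P := by
  have hW := integralAt_overQbar W h
  have hmap : ∀ {x y : ℚbar} (hx : x ∈ A) (hy : y ∈ A), (overQbar W).Equation x y →
      ((W.map (Int.castRingHom (IsLocalRing.ResidueField A))).toAffine.Nonsingular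
        (IsLocalRing.residue A ⟨x, hx⟩) (IsLocalRing.residue A ⟨y, hy⟩) ↔
          ¬ SingRed A q (overQbar W) x y) := by
    intro x y hx hy he
    set WA : Affine A := (W.map (Int.castRingHom A)).toAffine with hWA
    have e1 : WA.map A.subtype = overQbar W := by
      ext <;> simp [hWA]
    have hA : WA.Equation ⟨x, hx⟩ ⟨y, hy⟩ := by
      refine (Affine.map_equation (W := WA) (f := A.subtype) Subtype.val_injective _ _).mp ?_
      rw [e1]
      exact he
    have e : W.map (Int.castRingHom (IsLocalRing.ResidueField A)) =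
        WA.map (IsLocalRing.residue A) := by
      ext <;> simp [hWA]
    rw [e, Affine.nonsingular_iff']
    have heq := Affine.Equation.map (IsLocalRing.residue A) hA
    -- the two partial derivatives reduce to those of the reduced curve
    set dXA : A := WA.a₁ * ⟨y, hy⟩
      - (3 * ⟨x, hx⟩ ^ 2 + 2 * WA.a₂ * ⟨x, hx⟩ + WA.a₄) with hdX
    set dYA : A := 2 * ⟨y, hy⟩ + WA.a₁ * ⟨x, hx⟩ + WA.a₃ with hdY
    set xA : A := ⟨x, hx⟩ with hxA
    set yA : A := ⟨y, hy⟩ with hyA
    have n2 : ((2 : A) : ℚbar) = 2 := map_ofNat A.subtype 2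
    have n3 : ((3 : A) : ℚbar) = 3 := map_ofNat A.subtype 3
    have cX : (dXA : ℚbar) = dX (overQbar W) x y := by
      rw [← e1]; simp [hdX, dX, hxA, hyA, n2, n3]
    have cY : (dYA : ℚbar) = dY (overQbar W) x y := by
      rw [← e1]; simp [hdY, dY, hxA, hyA, n2]
    have rX : IsLocalRing.residue A dXA ≠ 0 ↔ ¬ Gt A q (dX (overQbar W) x y) 0 :=
      cX ▸ residue_ne_zero_iff h dXA.2
    have rY : IsLocalRing.residue A dYA ≠ 0 ↔ ¬ Gt A q (dY (overQbar W) x y) 0 :=
      cY ▸ residue_ne_zero_iff h dYA.2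
    have key : (∀ P : Prop, (P ∧ (IsLocalRing.residue A dXA ≠ 0 ∨ IsLocalRing.residue A dYA ≠ 0)
        ↔ P ∧ ¬ (Gt A q (dX (overQbar W) x y) 0 ∧ Gt A q (dY (overQbar W) x y) 0))) := fun P => by
      rw [rX, rY, not_and_or]
    have hex : IsLocalRing.residue A dXA = (WA.map (IsLocalRing.residue A)).a₁ *
        IsLocalRing.residue A yA - (3 * IsLocalRing.residue A xA ^ 2 +
          2 * (WA.map (IsLocalRing.residue A)).a₂ * IsLocalRing.residue A xA +
          (WA.map (IsLocalRing.residue A)).a₄) := by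
      simp [hdX, map_ofNat]
    have hey : IsLocalRing.residue A dYA = 2 * IsLocalRing.residue A yA +
        (WA.map (IsLocalRing.residue A)).a₁ * IsLocalRing.residue A xA +
        (WA.map (IsLocalRing.residue A)).a₃ := by
      simp [hdY, map_ofNat]
    rw [← hex, ← hey, key]
    simp only [SingRed, (mem_iff_ge h x).mp hx, true_and]
    exact ⟨fun hh => hh.2, fun hh => ⟨heq, hh⟩⟩
  rcases P with _ | ⟨x, y, hns⟩
  · exact iff_of_true (Or.inl rfl) trivial
  constructor
  · rintro (h0 | ⟨x', y', hns', e, hc⟩)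
    · exact absurd h0 (Point.some_ne_zero _)
    obtain ⟨rfl, rfl⟩ := Point.some.inj e
    rcases hc with hx | ⟨hx, hy, hn⟩
    · exact fun hs => hx ((mem_iff_ge h _).mpr hs.1)
    · exact (hmap hx hy hns.1).mp hn
  · intro hE
    refine Or.inr ⟨x, y, hns, rfl, ?_⟩
    by_cases hx : x ∈ A
    · have hy : y ∈ A := (mem_iff_ge h _).mpr (ge_y h hW hns.1 ((mem_iff_ge h _).mp hx))
      exact Or.inr ⟨hx, hy, (hmap hx hy hns.1).mpr hE⟩
    · exact Or.inl hx

/-- Frobenius-fixed torsion points with nonsingular reduction number at most `ℓ² + 1`. -/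
theorem card_fixed_le {ℓ : ℕ} (h : IsPlace A ℓ) {σ : Γℚ} (hσ : A.IsFrobeniusAt σ ℓ) {n : ℕ}
    (hn : ¬ ℓ ∣ n) (S : Finset (overQbar W).Point)
    (hS : ∀ P ∈ S, σ • P = P ∧ n • P = 0 ∧ InE0 A ℓ P) : S.card ≤ ℓ ^ 2 + 1 := by
  have hW := integralAt_overQbar W h
  have hℓ := h.1
  obtain ⟨hdec, hfrob⟩ := hσ
  set R := IsLocalRing.residue A
  have hint : ∀ P ∈ S, P ≠ 0 → ∃ x y hns, P = Point.some x y hns ∧ x ∈ A ∧ y ∈ A := by
    rintro (_ | ⟨x, y, hns⟩) hP hP0
    · exact absurd rfl hP0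
    have hx : Ge A ℓ x 0 := by
      by_contra hx
      exact hP0 (eq_zero_of_nsmul_eq_zero h hW (P := .some x y hns) hx hn (hS _ hP).2.1)
    exact ⟨x, y, hns, rfl, (mem_iff_ge h _).mpr hx,
      (mem_iff_ge h _).mpr (ge_y h hW hns.1 hx)⟩
  -- reduce the coordinates; they land in the roots `Z` of `X ^ ℓ - X`
  let f : (overQbar W).Point → IsLocalRing.ResidueField A × IsLocalRing.ResidueField A := fun P =>
    match P with
    | .zero => (0, 0)
    | .some x y _ => if hx : x ∈ A then if hy : y ∈ A then (R ⟨x, hx⟩, R ⟨y, hy⟩) else (0, 0)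
        else (0, 0)
  set g : Polynomial (IsLocalRing.ResidueField A) := Polynomial.X ^ ℓ - Polynomial.X
  have hdeg : g.natDegree = ℓ :=
    FiniteField.X_pow_card_sub_X_natDegree_eq _ hℓ.one_lt
  have hg : g ≠ 0 := FiniteField.X_pow_card_sub_X_ne_zero _ hℓ.one_lt
  set Z := g.roots.toFinset
  have hZ : Z.card ≤ ℓ := (g.roots.toFinset_card_le).trans (hdeg ▸ Polynomial.card_roots' g)
  have hfix : ∀ {z : ℚbar} (hz : z ∈ A), σ z = z → R ⟨z, hz⟩ ∈ Z := by
    intro z hz e
    rw [Multiset.mem_toFinset, Polynomial.mem_roots hg, Polynomial.IsRoot.def]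
    have h1 := hfrob (R ⟨z, hz⟩)
    rw [← IsLocalRing.ResidueField.residue_smul] at h1
    rw [show ((⟨σ, hdec⟩ : A.decompositionSubgroup ℚ) • (⟨z, hz⟩ : A)) = ⟨z, hz⟩ from
      Subtype.ext e] at h1
    simp [g, R, ← h1]
  have hmaps : ∀ P ∈ S.erase 0, f P ∈ Z ×ˢ Z := by
    intro P hP
    obtain ⟨hP0, hP⟩ := Finset.mem_erase.mp hP
    obtain ⟨x, y, hns, rfl, hx, hy⟩ := hint P hP hP0
    obtain ⟨hns', e⟩ := smul_some W σ hns
    have hfx := (hS _ hP).1
    rw [e] at hfx
    obtain ⟨ex, ey⟩ := Point.some.inj hfx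
    simp only [f, dif_pos hx, dif_pos hy, Finset.mem_product]
    exact ⟨hfix hx ex, hfix hy ey⟩
  -- torsion prime to `ℓ` injects into the reduction
  have hinj : Set.InjOn f (S.erase 0 : Finset _) := by
    intro P hP P' hP' e
    obtain ⟨hP0, hP⟩ := Finset.mem_erase.mp hP
    obtain ⟨hP0', hP'⟩ := Finset.mem_erase.mp hP'
    obtain ⟨x, y, hns, rfl, hx, hy⟩ := hint P hP hP0
    obtain ⟨x', y', hns', rfl, hx', hy'⟩ := hint P' hP' hP0'
    simp only [f, dif_pos hx, dif_pos hy, dif_pos hx', dif_pos hy', Prod.mk.injEq] at e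
    obtain ⟨e1, e2⟩ := e
    have gd : ∀ {a b : ℚbar} (ha : a ∈ A) (hb : b ∈ A), R ⟨a, ha⟩ = R ⟨b, hb⟩ →
        Gt A ℓ (a - b) 0 := by
      intro a b ha hb e'
      rw [← sub_eq_zero, ← map_sub] at e'
      by_contra hc
      exact (residue_ne_zero_iff h (sub_mem ha hb)).mpr hc e'
    refine sub_eq_zero.mp (eq_zero_of_nsmul_eq_zero h hW ?_ hn ?_)
    · rw [sub_eq_add_neg, Point.neg_some]
      exact inE1_add_of_opposite h hW hns _ ((mem_iff_ge h _).mp hx) ((mem_iff_ge h _).mp hx')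
        (gd hx hx' e1) (by rw [negY_negY]; exact gd hy hy' e2) (hS _ hP).2.2
    · rw [nsmul_sub, (hS _ hP).2.1, (hS _ hP').2.1, sub_zero]
  have h1 := Finset.card_le_card_of_injOn f hmaps hinj
  have h2 : S.card ≤ (S.erase 0).card + 1 := by
    have := Finset.pred_card_le_card_erase (s := S) (a := (0 : (overQbar W).Point))
    omega
  rw [Finset.card_product] at h1
  nlinarith

/-- A fixed point of order `p > ℓ² + 1` has singular reduction at `ℓ`. -/
theorem not_inE0_of_fixed {ℓ : ℕ} (h : IsPlace A ℓ) {σ : Γℚ} (hσ : A.IsFrobeniusAt σ ℓ) {p : ℕ}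
    (hp : p.Prime) (hℓp : ℓ ^ 2 + 1 < p) {Q : (overQbar W).Point} (hQ : σ • Q = Q)
    (hQord : addOrderOf Q = p) : ¬ InE0 A ℓ Q := by
  intro hE
  have hn : ¬ ℓ ∣ p := fun hd => by
    rcases hp.eq_one_or_self_of_dvd ℓ hd with e | e
    · exact h.1.one_lt.ne' e
    · nlinarith
  have hle := card_fixed_le h hσ hn ((Finset.range p).image fun i => i • Q) fun P hP => by
    obtain ⟨i, -, rfl⟩ := Finset.mem_image.mp hP
    exact ⟨by rw [gal_smul_nsmul, hQ],
      by rw [← mul_nsmul', mul_comm, mul_nsmul', ← hQord, addOrderOf_nsmul_eq_zero, nsmul_zero],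
      hE.nsmul h (integralAt_overQbar W h) i⟩
  rw [Finset.card_image_of_injOn (fun i hi j hj e => nsmul_injOn_Iio_addOrderOf
    (by simpa [hQord] using hi) (by simpa [hQord] using hj) e), Finset.card_range] at hle
  omega

/-- Inertia moves odd torsion into `E₀`. -/
theorem smul_sub_inE0_odd (h : IsPlace A q) {σ : Γℚ} (hσ : IsInert A σ) (hΔ : W.Δ ≠ 0)
    (hss : (q : ℤ) ∣ W.Δ → ¬ (q : ℤ) ∣ W.c₄) {n : ℕ} (hn : Odd n) {P : (overQbar W).Point}
    (hP : n • P = 0) : InE0 A q (σ • P - P) := by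
  by_cases hbad : (q : ℤ) ∣ W.Δ
  swap
  · exact inE0_of_good W h hbad _
  by_cases hP0 : InE0 A q P
  · exact (smul_sub_inE1 W h hσ hP0).inE0
  obtain ⟨C, r, t, rfl, hN⟩ := exists_nodal W h hΔ hbad (hss hbad)
  set C : VariableChange ℚbar := ⟨1, (r : ℚbar), 0, (t : ℚbar)⟩
  rcases P with _ | ⟨x, y, hns⟩
  · exact absurd trivial hP0
  have hφP : n • pointHom C (overQbar W) (.some x y hns) = 0 := by rw [← map_nsmul, hP, map_zero]
  have hφ0 : ¬ InE0 A q (pointHom C (overQbar W) (.some x y hns)) := fun e =>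
    hP0 ((inE0_pointHom W h _).mp e)
  obtain ⟨x₁, y₁, hns₁, s, e₁, hlow⟩ := low_of_torsion h hN hn hφP hφ0
  obtain ⟨hns', eσ⟩ := smul_some W σ hns
  rw [pointHom_some] at e₁
  obtain ⟨ex₁, ey₁⟩ := Point.some.inj e₁
  subst ex₁ ey₁
  have hσx : σ (newX C x) = newX C (σ x) := by simp [newX, C]
  have hσy : σ (newY C x y) = newY C (σ x) (σ y) := by simp [newY, C]
  have hz : Gt A q (σ (newY C x y) / σ (newX C x) - newY C x y / newX C x) 0 := by
    have hdiv : Ge A q (newY C x y / newX C x) 0 := by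
      simpa using hlow.2.2.2.div h hlow.2.2.1
    simpa [map_div₀] using hσ.gt_sub h hdiv
  have hnsσ : (changed C (overQbar W)).Nonsingular (σ (newX C x)) (σ (newY C x y)) := by
    rw [hσx, hσy]; exact nonsingular_new _ _ hns'
  obtain ⟨H0, -⟩ := sub_low h hN hnsσ hns₁ hlow (hσ.is_apply h hlow.2.2.1) hz
  refine (inE0_pointHom W h (r := r) (t := t) _).mp ?_
  rw [map_sub, eσ, pointHom_some, pointHom_some]
  simp only [hσx, hσy] at H0
  exact H0

/-- An element of the decomposition group preserves `E₁`. -/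
lemma inE1_smul_decomp (h : IsPlace A q) {σ : Γℚ} (hσ : σ ∈ A.decompositionSubgroup ℚ) :
    ∀ {P : (overQbar W).Point}, InE1 A q P → InE1 A q (σ • P)
  | .zero, _ => trivial
  | .some x y hns, hP => fun hg => hP (by
      rw [← mem_iff_ge h] at hg ⊢
      have e : σ • A = A := hσ
      have h' : σ • x ∈ σ • A := by rw [e]; exact hg
      exact ValuationSubring.smul_mem_pointwise_smul_iff.mp h')

/-- The exponent `cycloExp p σ` of the frozen admissibility predicate is the character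
`chi hζ σ`. -/
lemma cycloExp_eq {p : ℕ} [Fact p.Prime] {ζ : ℚbar} (hζ : IsPrimitiveRoot ζ p) (σ : Γℚ) :
    (ExtCitation.cycloExp p σ : ZMod p) = Fermat.EC.Dichotomy.chi hζ σ := by
  set c := modularCyclotomicCharacter ℚbar (ExtCitation.card_rootsOfUnity_eq_self p)
    (σ : ℚbar ≃+* ℚbar) with hc
  have e1 : σ ζ = ζ ^ (c : ZMod p).val := by
    have hmem : hζ.toRootsOfUnity.val ∈ rootsOfUnity p ℚbar := hζ.toRootsOfUnity.2
    have := modularCyclotomicCharacter.spec (L := ℚbar) (ExtCitation.card_rootsOfUnity_eq_self p)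
      (σ : ℚbar ≃+* ℚbar) hmem
    simpa using this
  have e2 := hζ.autToPow_spec ℚ σ
  rw [e1] at e2
  change (((c : ZMod p).val : ℕ) : ZMod p) = _
  rw [ZMod.natCast_zmod_val]
  exact ZMod.val_injective p (hζ.pow_inj (ZMod.val_lt _) (ZMod.val_lt _) e2.symm)

/-- The cyclotomic character is nontrivial on inertia at `p`. -/
theorem exists_inert_chi_ne_one {p : ℕ} [Fact p.Prime] (hp2 : p ≠ 2) {ζ : ℚbar}
    (hζ : IsPrimitiveRoot ζ p) (h : IsPlace A p) :
    ∃ σ : Γℚ, IsInert A σ ∧ Fermat.EC.Dichotomy.chi hζ σ ≠ 1 := by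
  have hp : p.Prime := Fact.out
  by_contra hc
  push Not at hc
  have : FiniteDimensional ℚ (IntermediateField.adjoin ℚ ({ζ} : Set ℚbar)) :=
    IntermediateField.finiteDimensional_adjoin fun z _ =>
      (Algebra.IsAlgebraic.isAlgebraic z).isIntegral
  -- otherwise the character is unramified everywhere, hence trivial
  have hall : ∀ σ : Γℚ, hζ.autToPow ℚ σ = 1 := by
    refine Galois.eq_one_of_forall_inertia _ ?_ fun ℓ hℓ => ?_
    · exact Subgroup.isOpen_mono
        (H₁ := (IntermediateField.adjoin ℚ ({ζ} : Set ℚbar)).fixingSubgroup) (fun σ hσ =>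
        Units.ext (Fermat.EC.Dichotomy.chi_eq_one_of_fix hζ
          ((IntermediateField.mem_fixingSubgroup_iff _ σ).mp hσ ζ
            (IntermediateField.subset_adjoin ℚ _ rfl))))
        (IntermediateField.fixingSubgroup_isOpen _)
    · by_cases hℓp : ℓ = p
      · subst hℓp
        exact ⟨A, h.2, fun σ hσ => Units.ext (hc σ (isInert_of_mem_inertia hσ))⟩
      · obtain ⟨B, hB⟩ := Fermat.CFT.exists_place hℓ
        exact ⟨B, hB, fun σ hσ => Units.ext (Fermat.EC.Dichotomy.chi_eq_one_of_fix hζ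
          (Cyclo.apply_zeta_eq ⟨hℓ, hB⟩ hp hℓp hζ (isInert_of_mem_inertia hσ)))⟩
  -- so every automorphism fixes `ζ`, which is then a rational root of unity
  have hfix : ∀ σ : Γℚ, σ ζ = ζ := fun σ => by
    have := hζ.autToPow_spec ℚ σ
    rw [hall σ, Units.val_one, ZMod.val_one, pow_one] at this
    exact this.symm
  obtain ⟨r, hr⟩ := exists_rat_of_fixed hfix
  have hr1 : r ^ p = 1 := by
    have := hζ.pow_eq_one
    rw [← hr] at this
    exact_mod_cast this
  -- and an odd prime order forces it to be `1`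
  have : r = 1 := by
    rcases pow_eq_one_iff_of_ne_zero hp.ne_zero |>.mp hr1 with e | ⟨-, he⟩
    · exact e
    · exact absurd he (Nat.not_even_iff_odd.mpr (hp.odd_of_ne_two hp2))
  exact hζ.ne_one hp.one_lt (by rw [← hr, this]; simp)

end Fermat.HT.Mazur
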