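import Fermat.Agent.HT.Mazur.Final
import Fermat.Agent.S10
import Fermat.Agent.S11
import Fermat.Agent.S13

/-!
# Irreducibility of the Frey representation

`frey_irreducible`, given step three: a reducible representation gives a cofixed line (`S13`),
which is excluded for `p = 5, 7, 13` by `S10`, for `p = 11` by `S11` and for `p ≥ 17` by the
descent of `Final`. `Assemble` discharges step three.
-/

set_option autoImplicit false

open WeierstrassCurve.Affine.Point

namespace Fermat.HT.Mazur

/-- **Mazur for Frey curves**, given step three and the vanishing of `Ext`. -/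
theorem frey_irreducible (P : FreyPackage) (h15 : StepThree)
    (hExt : ∀ (p : ℕ) [Fact p.Prime], 3 ≤ p → ExtCitation.ExtVanishingCts p) :
    GaloisRepIsIrreducible (K := AlgebraicClosure ℚ) ℚ P.freyCurve P.p := by
  by_contra hred
  have hcof := Fermat.Agent.S13.result P hred
  have h5 := P.hp5
  rcases Nat.lt_or_ge P.p 17 with hlt | hge
  · have hp := P.pp
    have : P.p = 5 ∨ P.p = 7 ∨ P.p = 11 ∨ P.p = 13 := by
      generalize P.p = p at hlt h5 hp
      interval_cases p <;> first | omega | exact absurd hp (by norm_num)
    rcases this with h | h | h | h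
    · exact Fermat.Agent.S10.result P (Or.inl h) hcof
    · exact Fermat.Agent.S10.result P (Or.inr (Or.inl h)) hcof
    · exact Fermat.Agent.S11.result P h hcof
    · exact Fermat.Agent.S10.result P (Or.inr (Or.inr h)) hcof
  · exact frey_no_cofixed P hge h15 hExt hcof

end Fermat.HT.Mazur
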