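import Fermat.Agent.HT.Mazur.StepThree
import Fermat.Agent.HT.Mazur.MazurFrey
import Fermat.Agent.S14

/-!
# The Frey curve has irreducible torsion, given the behaviour of `J₀(p)` at `p`

`frey_irreducible_of_atP` puts the folder together: the behaviour at `p` (`AtPOne`) gives the rank
zero statement of `HT/Descent`, hence step three (`StepThree`), hence the descent along the tower
(`Step`, `Final`) and the irreducibility (`MazurFrey`); the vanishing of `Ext` is `S14`.
-/

set_option autoImplicit false

noncomputable section

open WeierstrassCurve.Affine.Point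

namespace Fermat.HT.Mazur

open Fermat.HT.Descent (AtPHyp)

local notation "ℚbar" => AlgebraicClosure ℚ

/-- The behaviour at `p` of `J₀(p)`, at the primes `p ≥ 11`: the form of the hypothesis that
`stepThree` takes. It holds at every prime, by `atPHyp` of `HT/Mazur/AtPOne`. -/
def AtPAll : Prop := ∀ (p : ℕ) [Fact p.Prime] [NeZero p], 11 ≤ p → AtPHyp p

/-- For `p ≥ 17` there is no stable line with trivial action on the quotient. -/
theorem frey_no_cofixed_of_atP (hat : AtPAll) (P : FreyPackage) (hp17 : 17 ≤ P.p) :
    ¬ HasGaloisStableCofixedLine (K := ℚbar) ℚ P.freyCurve P.p :=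
  frey_no_cofixed P hp17 (stepThree hat) fun _ _ h => Fermat.Agent.S14.result h

/-- **The Frey representation is irreducible**, given the behaviour of `J₀(p)` at `p`. -/
theorem frey_irreducible_of_atP (hat : AtPAll) (P : FreyPackage) :
    GaloisRepIsIrreducible (K := ℚbar) ℚ P.freyCurve P.p :=
  frey_irreducible P (stepThree hat) fun _ _ h => Fermat.Agent.S14.result h

end Fermat.HT.Mazur

end
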