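import Fermat.Agent.BAD.X0.Torsion
import Fermat.Agent.HT.Descent.AtP
import Fermat.Agent.MC.X0.Genus
import Fermat.Agent.JAC.EvalDiv

/-!
# The behaviour at `p` of `J₀(p)`

`atPHyp`, the hypothesis of `HT/Descent/Rank` and `Assemble`: `X₀(1)` has genus zero, the
Atkin–Lehner involution at `p` of level `1 * p` is the Fricke involution and `U_p = -w`; so the two
relations on torsion prime to `p` (inertia is unipotent, Frobenius satisfies
`φ² + (p + 1) w φ + p = 0`) give `AtPHyp`.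
-/

set_option autoImplicit false

noncomputable section

open ModularCurve AlgebraicCurve

namespace Fermat.HT.Mazur

open Fermat.FF Fermat.MC Fermat.JAC Fermat.JAC.X0

local notation "ℚbar" => AlgebraicClosure ℚ
local notation "Γℚ" => (AlgebraicClosure ℚ ≃ₐ[ℚ] AlgebraicClosure ℚ)

/-- `J₀(1)` is trivial. -/
theorem subsingleton_jZero_one : Subsingleton (JZero 1) := by
  have : IsFunctionField ℚbar (FN 1 ℚbar) := MC.isFunctionField_FN 1 embC
  have hg : genusFF ℚbar (FN 1 ℚbar) = 0 := by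
    have h : (genusFF ℚbar (FN 1 ℚbar) : ℚ) = genusFormula 1 := MC.genusFF_FN 1 embC
    have h2 : nuTwo 1 = 1 := by
      rw [nuTwo, Nat.card_eq_one_iff_unique]
      exact ⟨inferInstance, ⟨⟨0, Subsingleton.elim _ _⟩⟩⟩
    have h3 : nuThree 1 = 1 := by
      rw [nuThree, Nat.card_eq_one_iff_unique]
      exact ⟨inferInstance, ⟨⟨0, Subsingleton.elim _ _⟩⟩⟩
    rw [genusFormula, dedekindPsi_one, h2, h3, cuspCount_one] at h
    norm_num at h
    exact_mod_cast h
  refine ⟨fun a b => sub_eq_zero.mp ?_⟩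
  obtain ⟨⟨D, hD⟩, hDe⟩ := Pic0.mk_surjective (a - b)
  rw [← hDe, pic0_mk_eq_zero_iff]
  have hdeg : Divisor.degree D = 0 := Divisor.mem_degZero.mp hD
  obtain ⟨f, hf, hf0, -⟩ := exists_exact_ord (D := -D) ∅ (by rw [map_neg, hdeg, hg]; simp)
  refine ⟨f, hf0, sub_eq_zero.mp (FF.eq_zero_of_nonneg_of_degree (Finsupp.le_def.mpr fun v => ?_)
    (by rw [map_sub, degree_divOf, hdeg, sub_zero]))⟩
  have h1 := (mem_riemannRochSpace.mp hf v).le_ord hf0
  simp only [Finsupp.neg_apply, neg_neg] at h1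
  simp only [Finsupp.coe_zero, Pi.zero_apply, Finsupp.sub_apply, divOf_apply]
  omega

variable {p : ℕ} [hp : Fact p.Prime] [NeZero p]

/-- At level `1 * p` the Atkin–Lehner involution is the Fricke involution. -/
theorem alAut_one_eq (h : ¬ p ∣ 1) :
    Fermat.BAD.X0.alAut 1 p hp.out h = frickeAut (1 * p) ℚbar := by
  refine congrArg SemilinearAut.ofAlgAut (AlgEquiv.ext fun f => ?_)
  refine ringHom_ext_jdL (φ := (Fermat.BAD.X0.alW 1 p hp.out h).toAlgHom.toRingHom)
    (ψ := (fricke (1 * p) ℚbar).toAlgHom.toRingHom) (fun c => ?_) (fun d => ?_) f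
  · change Fermat.BAD.X0.alW 1 p hp.out h (algebraMap ℚbar _ c) =
      fricke (1 * p) ℚbar (algebraMap ℚbar _ c)
    rw [AlgEquiv.commutes, AlgEquiv.commutes]
  · change Fermat.BAD.X0.alW 1 p hp.out h (jdL ℚbar d) = fricke (1 * p) ℚbar (jdL ℚbar d)
    rw [Fermat.BAD.X0.alW_jdL, fricke_jdL]
    refine congrArg (jdL ℚbar) (Subtype.ext ?_)
    have hd : (d : ℕ) ∣ p := d.dvd.trans (one_mul p).dvd
    rcases (Nat.dvd_prime hp.out).mp hd with h1 | h1
    · rw [swapPerm, dif_neg (by rw [h1]; exact h)]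
      change (d : ℕ) * p = 1 * p / d
      rw [h1, Nat.div_one]
    · rw [swapPerm, dif_pos (by rw [h1])]
      change (d : ℕ) / p = 1 * p / d
      rw [h1, one_mul]

/-- **The behaviour at `p` of `J₀(p)`.** On torsion prime to `p` inertia at `p` is unipotent and
Frobenius satisfies its quadratic relation with `U p`. -/
theorem atPHyp : Fermat.HT.Descent.AtPHyp p := by
  intro A hA m hm x hx
  have := subsingleton_jZero_one
  have : NeZero (1 * p) := ⟨by rw [one_mul]; exact NeZero.ne p⟩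
  have h1 : ¬ p ∣ 1 := fun h => hp.out.not_dvd_one h
  -- state the two relations at level `N = 1 * p` to rewrite the level
  have main : ∀ (N : ℕ) [NeZero N], N = 1 * p → ∀ x : JZero N, m • x = 0 →
      (∀ σ ∈ A.inertiaSubgroupIn ℚ, σ • (σ • x - x) = σ • x - x) ∧
        ∀ φ : Γℚ, A.IsFrobeniusAt φ p →
          φ • φ • x + (p + 1) • frickeAut N ℚbar • φ • x + p • x = 0 := by
    intro N _ hN x hx
    subst hN
    refine ⟨fun σ hσ => Fermat.BAD.X0.inertia_smul_sub hp.out h1 hA hσ hm hx, fun φ hφ => ?_⟩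
    rw [← alAut_one_eq h1]
    exact Fermat.BAD.X0.frobenius_sq_of_subsingleton hp.out h1 hA hφ hm hx
  obtain ⟨hI, hF⟩ := main p (one_mul p).symm x hx
  refine ⟨hI, fun φ hφ => ?_⟩
  rw [Fermat.HT.Cusp.heckeOperatorBar_self, neg_nsmul]
  refine eq_neg_of_add_eq_zero_left ?_
  rw [← hF φ hφ]
  abel

end Fermat.HT.Mazur

end
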