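import Fermat.Agent.HT.Mazur.Basic

/-!
# The kernel of reduction over `ℚ̄` is `p`-divisible

This is `exists_nsmul_eq_of_inE1`, for `p ≥ 5` and a curve semistable at `p`.
-/

set_option autoImplicit false

open scoped Classical
open Polynomial WeierstrassCurve WeierstrassCurve.Affine
open Fermat.EC Fermat.EC.Val Fermat.EC.Red

noncomputable section

namespace Fermat.HT.Mazur

local notation "ℚbar" => AlgebraicClosure ℚ

variable {W : WeierstrassCurve ℤ}

/-- For `p ≥ 5` and a curve semistable at `p`, every point of the kernel of reduction at a place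
over `p` is `p` times another one. -/
theorem exists_nsmul_eq_of_inE1 (hΔ : W.Δ ≠ 0) {p : ℕ} (hp : p.Prime) (hp5 : 5 ≤ p)
    {A : ValuationSubring ℚbar} (h : IsPlace A p)
    (hss : (p : ℤ) ∣ W.Δ → ¬ (p : ℤ) ∣ W.c₄) {P : (overQbar W).Point} (hP : InE1 A p P) :
    ∃ R : (overQbar W).Point, InE1 A p R ∧ p • R = P := by
  rcases P with _ | ⟨x, y, hns⟩
  · exact ⟨0, inE1_zero, nsmul_zero p⟩
  have hW := integralAt_overQbar W h
  have hodd : ¬ Even p := Nat.not_even_iff_odd.mpr (hp.odd_of_ne_two (by omega))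
  have hΔ' := Fermat.EC.Line.Δ_overQbar_ne hΔ
  set φ := WeierstrassCurve.Φ (overQbar W) (p : ℤ) with hφ
  set ψ := WeierstrassCurve.ΨSq (overQbar W) (p : ℤ) with hψ
  have hmapφ : φ = (W.Φ (p : ℤ)).map (Int.castRingHom ℚbar) := by
    rw [hφ, ← map_Φ, ← Fermat.EC.Line.overQbar_eq_map]
  have hmapψ : ψ = (W.ΨSq (p : ℤ)).map (Int.castRingHom ℚbar) := by
    rw [hψ, ← map_ΨSq, ← Fermat.EC.Line.overQbar_eq_map]
  set g := φ - C x * ψ with hg
  have hφd : φ.natDegree = p ^ 2 := by rw [hφ, natDegree_Φ]; simp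
  have hψd : ψ.natDegree ≤ p ^ 2 - 1 := by
    simpa [hψ] using WeierstrassCurve.natDegree_ΨSq_le (overQbar W) (p : ℤ)
  have hlt : (C x * ψ).natDegree < φ.natDegree :=
    (natDegree_C_mul_le x ψ).trans_lt (by have := pow_pos hp.pos 2; omega)
  have hgm : g.Monic := by
    refine Monic.sub_of_left (by rw [Monic, hφ, leadingCoeff_Φ]) ?_
    exact degree_lt_degree hlt
  -- some coefficient of `ΨSq p` is a unit, so some root `r` of `Φ p - x ΨSq p` is not integral
  obtain ⟨i, hi⟩ : ∃ i, ¬ (p : ℤ) ∣ (W.ΨSq (p : ℤ)).coeff i := by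
    by_contra hc
    push Not at hc
    have hne := ModP.preΨ'_map_ne_zero W hp hp5 hss
    have := Fact.mk hp
    apply pow_ne_zero 2 hne
    rw [← Polynomial.map_pow, show W.preΨ' p ^ 2 = W.ΨSq (p : ℤ) by
      rw [ΨSq_ofNat, if_neg hodd, mul_one]]
    ext j
    rw [coeff_map, coeff_zero, eq_intCast, ZMod.intCast_zmod_eq_zero_iff_dvd]
    exact hc j
  obtain ⟨r, hr, hrx⟩ : ∃ r, g.IsRoot r ∧ ¬ Ge A p r 0 := by
    by_contra hc
    push Not at hc
    apply hP
    have hl : g ∈ Polynomial.lifts (A.subtype) := by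
      rw [(IsAlgClosed.splits g).eq_prod_roots, hgm.leadingCoeff, C_1, one_mul]
      refine multiset_prod_mem _ fun f hf => ?_
      obtain ⟨r, hr, rfl⟩ := Multiset.mem_map.mp hf
      refine ⟨X - C ⟨r, (mem_iff_ge h r).mpr (hc r (isRoot_of_mem_roots hr))⟩, ?_⟩
      simp
    have hgi : Ge A p (g.coeff i) 0 := by
      obtain ⟨z, hz⟩ := (lifts_iff_coeff_lifts _).mp hl i
      rw [← hz]
      exact (mem_iff_ge h _).mp z.2
    rw [hg, coeff_sub, coeff_C_mul, hmapφ, hmapψ, coeff_map, coeff_map, eq_intCast, eq_intCast]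
      at hgi
    have hprod := (ge_intCast (A := A) h ((W.Φ (p : ℤ)).coeff i)).sub h hgi
    rw [sub_sub_cancel] at hprod
    have := hprod.div h (is_intCast (A := A) h hi)
    rwa [sub_zero, mul_div_cancel_right₀ _ (is_intCast (A := A) h hi).1] at this
  have hr' : φ.eval r = x * ψ.eval r := by
    simpa [hg, sub_eq_zero] using hr
  have hψr : ψ.eval r ≠ 0 := fun e => Φ_ΨSq_no_common_root hΔ' hp.one_le e
    (by rw [← hφ, hr', e, mul_zero])
  obtain ⟨y', hy'⟩ := exists_equation (overQbar W) r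
  have hns' : (overQbar W).Nonsingular r y' := (equation_iff_nonsingular_of_Δ_ne_zero hΔ').mp hy'
  have hR : InE1 A p (Point.some r y' hns') := hrx
  have hgood : GoodUpTo (overQbar W) r y' p := by
    refine (goodUpTo_iff hns' p).mpr fun k hk1 hk2 e => ?_
    rcases hk2.lt_or_eq with hk | rfl
    · exact Point.some_ne_zero hns' (eq_zero_of_nsmul_eq_zero h hW hR
        (fun hd => absurd (Nat.le_of_dvd (by omega) hd) (by omega)) e)
    · apply hψr
      rw [hψ, ΨSq_ofNat, if_neg hodd, mul_one, eval_pow]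
      have hroot := Fermat.EC.Line.root_of_torsion hp (by omega) e (Point.some_ne_zero hns')
      rw [← Fermat.EC.Line.preΨ'_overQbar] at hroot
      exact (pow_eq_zero_iff two_ne_zero).mpr hroot
  -- a point over `r` is in the kernel of reduction and `p` times it has the abscissa of `P`
  obtain ⟨xn, yn, hn', en, Dn⟩ := mulFormula_of_good hns' p hp.one_le hgood
  have hx : xn = x := by
    have hw := hgood p hp.one_le le_rfl
    rw [hφ, hψ, eval_Φ_eq_wv hy', eval_ΨSq_eq_wv hy', ← Dn] at hr'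
    apply mul_right_cancel₀ (pow_ne_zero 2 hw)
    linear_combination hr'
  rcases Point.X_eq_iff (h₁ := hn') (h₂ := hns) |>.mp hx with e | e
  · exact ⟨_, hR, en.trans e⟩
  · exact ⟨-Point.some r y' hns', InE1.neg hR, by rw [neg_nsmul, en, e, neg_neg]⟩

end Fermat.HT.Mazur
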