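import Fermat.Agent.HT.Cusp.HeckeAct
import Fermat.Agent.MF.Eisen.Duality
import Fermat.Agent.MC.IntStructure

/-!
# An element prime to `ℓ` moves some first coefficient to a unit at `ℓ`

The pairing `(t, f) ↦ a₁(t f)` between the Hecke algebra and integral cusp forms is perfect.
-/

set_option autoImplicit false

noncomputable section

namespace Fermat.HT.Mazur

open Fermat.GR (FullHecke)
open Fermat.HT.Cusp (IsActSeq)
open Fermat.MF.Eisen (pairing pairing_spec pairing_surjective exists_int_qCoeff HT Lat)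

variable {p : ℕ} [hp : Fact p.Prime] [NeZero p]

/-- An element not divisible by `ℓ` moves some integral form to one with first coefficient prime
to `ℓ`. -/
theorem exists_actSeq_not_dvd {ℓ : ℕ} {t : FullHecke p} (ht : ¬ (ℓ : FullHecke p) ∣ t) :
    ∃ a b, IsActSeq (t : Module.End ℂ (CuspForm (CongruenceSubgroup.Gamma0 p) 2)) a b ∧
      ¬ (ℓ : ℤ) ∣ b 1 := by
  classical
  by_contra hcon
  push Not at hcon
  obtain ⟨hinj, hsurj⟩ := CuspForm.latticeRestrictHom_bijective p (∅ : Set ℕ)
    (Fermat.MC.span_intLattice_eq_top p 2)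
  set res := CuspForm.latticeRestrictHom p (∅ : Set ℕ)
  set bT := Module.Free.chooseBasis ℤ (HT p)
  have hd : ∀ i, (ℓ : ℤ) ∣ bT.repr (res t) i := by
    intro i
    obtain ⟨f, hf⟩ := pairing_surjective p (bT.coord i)
    have h1 : bT.repr (res t) i = pairing p f (res t) := by rw [hf]; rfl
    choose a ha using exists_int_qCoeff (p := p) f.2
    choose b hb using exists_int_qCoeff (p := p)
      (((res t : HT p) : Module.End ℤ (Lat p)) f).2
    have hab : IsActSeq (t : Module.End ℂ (CuspForm (CongruenceSubgroup.Gamma0 p) 2)) a b :=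
      ⟨(f : CuspForm (CongruenceSubgroup.Gamma0 p) 2), ha, hb⟩
    have h2 : (pairing p f (res t) : ℂ) = b 1 := (pairing_spec p f (res t)).trans (hb 1)
    rw [h1, Int.cast_injective h2]
    exact hcon a b hab
  choose c hc using hd
  obtain ⟨u, hu⟩ := hsurj (bT.equivFun.symm c)
  refine ht ⟨u, hinj ?_⟩
  rw [map_mul, map_natCast, hu, ← nsmul_eq_mul]
  refine bT.equivFun.injective (funext fun i => ?_)
  rw [map_nsmul, LinearEquiv.apply_symm_apply, bT.equivFun_apply, Pi.smul_apply, nsmul_eq_mul]
  exact hc i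

end Fermat.HT.Mazur

end
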