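import Fermat.Agent.HT.Mazur.Step
import Fermat.Agent.EC.Frey
import Fermat.Prelude.Def_FLTPrelim_CofixedLine
import Mathlib.NumberTheory.Bertrand

/-!
# No large prime admits a cofixed line on the Frey curve

`no_setup`: by `stable_succ` all subgroups of the tower are stable, so a Frobenius at a large good
prime fixes too many torsion points. Hence `no_cofixed` for semistable curves and
`frey_no_cofixed` for the Frey curve, used for `p ≥ 17` in `MazurFrey`.
-/

set_option autoImplicit false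

open scoped Pointwise
open WeierstrassCurve.Affine.Point
open Fermat.EC

noncomputable section

namespace Fermat.HT.Mazur

local notation "ℚbar" => AlgebraicClosure ℚ

variable {W : WeierstrassCurve ℤ} {p : ℕ}

/-- All the subgroups of the tower are stable. -/
theorem Setup.stable [Fact p.Prime] {S : Setup W p} (τ : Tower S) {ζ : ℚbar}
    (hζ : IsPrimitiveRoot ζ p) (h15 : StepThree) (hExt : ExtCitation.ExtVanishingCts p) :
    ∀ n, τ.Stable n := by
  -- by induction a quotient by each subgroup exists and the next subgroup is stable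
  have key : ∀ n, Nonempty (Quot τ n) ∧ τ.Stable (n + 1) := by
    intro n
    induction n with
    | zero =>
      refine ⟨⟨Quot.zero τ⟩, fun σ => ?_⟩
      obtain ⟨k, hk⟩ := S.stab σ
      exact ⟨k, by rw [show (0 : ℕ) + 1 = 1 from rfl, τ.P_one, hk, natCast_zsmul]⟩
    | succ n ih =>
      obtain ⟨⟨L⟩, hst⟩ := ih
      obtain ⟨L'⟩ := L.exists_succ hζ hst
      exact ⟨⟨L'⟩, L'.stable_succ hζ h15 hExt hst⟩
  rintro (_ | n)
  · exact τ.stable_zero
  · exact (key n).2

/-- No `Setup` exists: all subgroups of its tower would be stable, so a Frobenius at a large good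
prime `ℓ` would fix at least `p ^ k` of the `p ^ k`-torsion points, against the bound `ℓ ^ 2 + 1`
on fixed points of good reduction. -/
theorem no_setup [Fact p.Prime] (S : Setup W p) (h15 : StepThree)
    (hExt : ExtCitation.ExtVanishingCts p) : False := by
  have hp : p.Prime := S.hp
  obtain ⟨ζ, hζ⟩ := Fermat.EC.Cyclo.exists_zeta hp
  obtain ⟨τ⟩ := exists_tower S hζ
  have hst := S.stable τ hζ h15 hExt
  -- a good prime `ℓ ≠ p` with a Frobenius `σ`, and `k` with `p ^ k > ℓ ^ 2 + 1`
  obtain ⟨ℓ, hℓge, hℓ⟩ := Nat.exists_infinite_primes (W.Δ.natAbs + p + 1)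
  have hℓp : ℓ ≠ p := by omega
  have hgood : ¬ (ℓ : ℤ) ∣ W.Δ := fun hd => by
    have h1 := Nat.le_of_dvd (Int.natAbs_pos.mpr S.hΔ) (Int.natCast_dvd.mp hd)
    omega
  obtain ⟨B, hB⟩ := Fermat.CFT.exists_place hℓ
  obtain ⟨σ, hσ⟩ := Fermat.CFT.exists_isFrobeniusAt hℓ hB
  set k := ℓ ^ 2 + 2 with hk
  -- `σ - 1` maps `E[p ^ k]` into the cyclic group of `P k`,
  -- so its kernel has order at least `p ^ k`
  let f : Line.tors W (p ^ k) →+ (overQbar W).Point :=
    { toFun := fun X => σ • (X : (overQbar W).Point) - X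
      map_zero' := by rw [AddSubgroup.coe_zero, gal_smul_zero, sub_zero]
      map_add' := fun a b => by rw [AddSubgroup.coe_add, gal_smul_add]; abel }
  have hrange : f.range ≤ AddSubgroup.zmultiples (τ.P k) := by
    rintro _ ⟨X, rfl⟩
    obtain ⟨a, ha⟩ := τ.quot_trivial hζ (hst _) σ X.2
    exact ⟨a, ha.symm⟩
  have hfinP : Finite (AddSubgroup.zmultiples (τ.P k)) := Nat.finite_of_card_ne_zero (by
    rw [Nat.card_zmultiples]
    exact (IsOfFinAddOrder.addOrderOf_pos (isOfFinAddOrder_iff_nsmul_eq_zero.mpr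
      ⟨p ^ k, pow_pos hp.pos k, τ.tors_P k⟩)).ne')
  have hr : Nat.card f.range ≤ p ^ k := by
    refine (AddSubgroup.card_le_of_le hrange).trans ?_
    rw [Nat.card_zmultiples]
    exact Nat.le_of_dvd (pow_pos hp.pos k) (addOrderOf_dvd_of_nsmul_eq_zero (τ.tors_P k))
  have hcard := AddSubgroup.card_eq_card_quotient_mul_card_addSubgroup f.ker
  rw [Line.natCard_tors S.hΔ (Nat.one_le_pow _ _ hp.pos),
    Nat.card_congr (QuotientAddGroup.quotientKerEquivRange f).toEquiv] at hcard
  have : Finite (Line.tors W (p ^ k)) := Nat.finite_of_card_ne_zero (by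
    rw [Line.natCard_tors S.hΔ (Nat.one_le_pow _ _ hp.pos)]
    exact pow_ne_zero _ (pow_ne_zero _ hp.ne_zero))
  have hker : p ^ k ≤ Nat.card f.ker := by
    refine Nat.le_of_mul_le_mul_left ?_ (pow_pos hp.pos k)
    rw [← sq, hcard]
    exact Nat.mul_le_mul_right _ hr
  -- but at most `ℓ ^ 2 + 1` torsion points of good reduction are fixed by `σ`
  have : Fintype f.ker := Fintype.ofFinite _
  have hle := card_fixed_le ⟨hℓ, hB⟩ hσ (n := p ^ k)
    (fun hd => hℓp ((Nat.prime_dvd_prime_iff_eq hℓ hp).mp (hℓ.dvd_of_dvd_pow hd)))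
    (Finset.image (fun X : f.ker => X.1.1) Finset.univ)
    (fun X hX => by
      obtain ⟨Y, -, rfl⟩ := Finset.mem_image.mp hX
      exact ⟨sub_eq_zero.mp (AddMonoidHom.mem_ker.mp Y.2), Y.1.2,
        inE0_of_good W ⟨hℓ, hB⟩ hgood _⟩)
  rw [Finset.card_image_of_injective _ (fun a b e => Subtype.ext (Subtype.ext e)),
    Finset.card_univ, ← Nat.card_eq_fintype_card] at hle
  have : k < p ^ k := Nat.lt_pow_self hp.one_lt
  omega

/-- A semistable curve over `ℤ` has no cofixed line at a prime `p ≥ 17`. -/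
theorem no_cofixed (W : WeierstrassCurve ℤ) (hΔ : W.Δ ≠ 0)
    (hss : ∀ q : ℕ, q.Prime → (q : ℤ) ∣ W.Δ → ¬ (q : ℤ) ∣ W.c₄) {p : ℕ} [Fact p.Prime]
    (hp17 : 17 ≤ p) (h15 : StepThree) (hExt : ExtCitation.ExtVanishingCts p) :
    ¬ HasGaloisStableCofixedLine (K := ℚbar) ℚ (W.map (Int.castRingHom ℚ)) p := by
  rintro ⟨N, hNst, hN0, hNtop, hcof⟩
  have hp : p.Prime := Fact.out
  have hp1 : 1 ≤ p := hp.one_le
  have hcard : Nat.card (Submodule.torsionBy ℤ (overQbar W).Point (p : ℤ)) = p ^ 2 :=
    card_torsionBy (Fermat.EC.Line.Δ_overQbar_ne (hΔ)) hp1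
  have : Finite (Submodule.torsionBy ℤ (overQbar W).Point (p : ℤ)) :=
    Nat.finite_of_card_ne_zero (by rw [hcard]; positivity)
  -- the line has order `p`
  have hcardN : Nat.card N = p := by
    have hd := AddSubgroup.card_addSubgroup_dvd_card N.toAddSubgroup
    rw [hcard, Nat.dvd_prime_pow hp] at hd
    obtain ⟨i, hi, e⟩ := hd
    change Nat.card N = p ^ i at e
    interval_cases i
    · exfalso
      apply hN0
      rw [pow_zero, Nat.card_eq_one_iff_unique] at e
      obtain ⟨hsub, -⟩ := e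
      refine (Submodule.eq_bot_iff _).mpr fun x hx => ?_
      exact congrArg Subtype.val (hsub.elim ⟨x, hx⟩ 0)
    · simpa using e
    · exact absurd (Submodule.toAddSubgroup_injective (AddSubgroup.eq_top_of_card_eq _
        (e.trans hcard.symm))) hNtop
  obtain ⟨x, hxN, hx0⟩ := Submodule.exists_mem_ne_zero_of_ne_bot hN0
  have hxp : p • (x : (overQbar W).Point) = 0 := by
    have := x.2
    rwa [Submodule.mem_torsionBy_iff, natCast_zsmul] at this
  -- any nonzero point of the line gives a `Setup`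
  refine no_setup (W := W) (p := p)
    { A := (Fermat.CFT.exists_place hp).choose
      P₀ := x
      hΔ := hΔ
      hp := hp
      hp17 := hp17
      hA := ⟨hp, (Fermat.CFT.exists_place hp).choose_spec⟩
      hss := hss
      hP := hxp
      hP0 := fun e => hx0 (Subtype.ext e)
      cofixed := fun σ X hX => ?_ } h15 hExt
  set y : Submodule.torsionBy ℤ (overQbar W).Point (p : ℤ) :=
    ⟨X, by rw [Submodule.mem_torsionBy_iff, natCast_zsmul, hX]⟩
  obtain ⟨j, hj⟩ := mem_multiples_of_prime_card (g := (⟨x, hxN⟩ : N))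
    (g' := ⟨σ • y - y, hcof σ y⟩) hcardN (fun e => hx0 (congrArg Subtype.val e))
  exact ⟨j, (congrArg (fun z : N =>
    ((z : Submodule.torsionBy ℤ (overQbar W).Point (p : ℤ)) :
      (overQbar W).Point)) hj).symm.trans (by simp)⟩

/-- **No cofixed line at `p ≥ 17`** on the Frey curve, given step three of Mazur and the vanishing
of `Ext`. -/
theorem frey_no_cofixed (P : FreyPackage) (hp17 : 17 ≤ P.p) (h15 : StepThree)
    (hExt : ∀ (p : ℕ) [Fact p.Prime], 3 ≤ p → ExtCitation.ExtVanishingCts p) :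
    ¬ HasGaloisStableCofixedLine (K := ℚbar) ℚ P.freyCurve P.p := by
  rw [← Fermat.EC.Frey.map_freyCurveInt]
  have : Fact P.p.Prime := ⟨P.pp⟩
  exact no_cofixed P.freyCurveInt (Fermat.EC.Frey.Δ_ne_zero P)
    (fun q hq => Fermat.EC.Frey.semistable P hq) hp17 h15 (hExt P.p (by omega))

end Fermat.HT.Mazur
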