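import Fermat.Agent.HT.Isog.Rat
import Fermat.Agent.HT.Cusp.Places
import Fermat.Agent.MC.X0.Field

/-!
# The point of `X₀(p)` attached to a curve and a point of order `p`

A lattice and a refinement of index `p` are `ℤ τ + ℤ` and `ℤ p τ + ℤ` up to scaling; the expansion
of functions at `τ` gives a place where `j` and `j_N` take the two invariants.
-/

set_option autoImplicit false

attribute [local instance 10000] SubalgebraClass.toAlgebra HahnSeries.powerSeriesAlgebra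

open scoped Real UpperHalfPlane
open UpperHalfPlane WeierstrassCurve

noncomputable section

namespace Fermat.HT.Mazur

open Fermat.HT.Ell Fermat.HT.Isog
open Fermat.EC (overQbar)
open scoped WeierstrassCurve.Affine

/-! ### Invariants of lattices -/

/-- The invariant of a lattice. -/
def jLat (L : PeriodPair) : ℂ := 1728 * L.g₂ ^ 3 / (L.g₂ ^ 3 - 27 * L.g₃ ^ 2)

/-- The invariant depends only on the lattice. -/
theorem jLat_congr {L L' : PeriodPair} (h : L.lattice = L'.lattice) : jLat L = jLat L' := by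
  simp only [jLat, PeriodPair.g₂, PeriodPair.g₃, periodPair_G_congr h]

/-- The lattice `ℤ τ + ℤ` has invariant `j τ`. -/
theorem jLat_tauPair (τ : ℍ) : jLat (tauPair τ) = MC.jA τ := by
  have hπ : (π : ℂ) ≠ 0 := Complex.ofReal_ne_zero.2 Real.pi_ne_zero
  have hΔ := ModularForm.discriminant_ne_zero τ
  rw [jLat, disc_tauPair, g₂_tauPair, MC.jA]
  field_simp
  ring

/-- The invariant is unchanged by scaling the lattice. -/
theorem jLat_scalePair (L : PeriodPair) (c : ℂ) (hc : c ≠ 0) :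
    jLat (scalePair L c hc) = jLat L := by
  have hd := disc_ne_zero L
  rw [jLat, jLat, g₂_scalePair, g₃_scalePair]
  field_simp

/-- A lattice uniformising `W` has invariant `c₄ ^ 3 / Δ`. -/
theorem jLat_of_uniformizes {L : PeriodPair} {W : Affine ℂ} (hU : Uniformizes L W) :
    jLat L = W.c₄ ^ 3 / W.Δ := by
  have h := W.c_relation
  rw [← hU.h2, ← hU.h3] at h
  have hD : L.g₂ ^ 3 - 27 * L.g₃ ^ 2 = W.Δ := by linear_combination (-1 / 1728) * h
  rw [jLat, hD, ← hU.h2]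
  ring

/-! ### Bases adapted to a refinement -/

/-- A basis with `L' = ⟨w₁, w₂ / n⟩`. -/
theorem exists_adapted_basis {L L' : PeriodPair} {n : ℕ} (hn : n.Prime) {c : ℂ}
    (hR : Refines L L' n c) :
    ∃ w₁ w₂ : ℂ, LinearIndependent ℝ ![w₁, w₂] ∧ Submodule.span ℤ {w₁, w₂} = L.lattice ∧
      Submodule.span ℤ {w₁, w₂ / n} = L'.lattice := by
  rw [hR.lattice_eq]
  exact exists_adapted_pair L hn (by simpa using hR.notMem 1 (by simp [hn.one_lt])) hR.mul_mem

/-- A refinement of index `p` comes from a point of the upper half plane, up to scaling. -/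
theorem exists_tau (p : ℕ) [hp : Fact p.Prime] [NeZero p] {L L' : PeriodPair} {c : ℂ}
    (hR : Refines L L' p c) : ∃ τ : ℍ, MC.jA τ = jLat L ∧ MC.jN p τ = jLat L' := by
  -- a basis of one lattice adapted to the other; its ratio is not real
  obtain ⟨w₁, w₂, hi, hL, hL'⟩ := exists_adapted_basis hp.out hR
  have hw₂ : w₂ ≠ 0 := fun h => by simpa [h] using hi.ne_zero 1
  have him : (w₁ / w₂).im ≠ 0 := fun h => by
    have h2 := LinearIndependent.pair_iff.1 hi 1 (-(w₁ / w₂).re) (by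
      have e : ((w₁ / w₂).re : ℂ) = w₁ / w₂ := Complex.ext rfl (by simp [h])
      simp only [Complex.real_smul, Complex.ofReal_one, one_mul, Complex.ofReal_neg, e]
      field_simp
      ring)
    exact one_ne_zero h2.1
  -- `τ` is the ratio up to sign, which does not change the lattices
  obtain ⟨τ, ε, hε, hτ⟩ : ∃ (τ : ℍ) (ε : ℤ), (ε = 1 ∨ ε = -1) ∧ (τ : ℂ) = ε * (w₁ / w₂) := by
    rcases lt_or_gt_of_ne him with h | h
    · exact ⟨⟨-(w₁ / w₂), by simpa using h⟩, -1, Or.inr rfl, by simp⟩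
    · exact ⟨⟨w₁ / w₂, h⟩, 1, Or.inl rfl, by simp⟩
  have hsgn : ∀ v : ℂ, Submodule.span ℤ {(ε : ℂ) * w₁, v} = Submodule.span ℤ {w₁, v} := by
    intro v
    rcases hε with rfl | rfl
    · simp
    · refine le_antisymm (Submodule.span_le.2 ?_) (Submodule.span_le.2 ?_) <;>
        rw [Set.insert_subset_iff, Set.singleton_subset_iff] <;>
        refine ⟨?_, Submodule.subset_span (by simp)⟩ <;>
        rw [SetLike.mem_coe, Submodule.mem_span_pair] <;> exact ⟨-1, 0, by simp⟩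
  -- both lattices are scalings of those of `τ` and `p τ`
  refine ⟨τ, ?_, ?_⟩
  · rw [← jLat_tauPair, ← jLat_scalePair (tauPair τ) w₂ hw₂]
    refine jLat_congr ?_
    change Submodule.span ℤ {w₂ * (τ : ℂ), w₂ * 1} = _
    rw [← hL, ← hsgn, mul_one, hτ, show w₂ * ((ε : ℂ) * (w₁ / w₂)) = ε * w₁ by field_simp]
  · have hp0 : (p : ℂ) ≠ 0 := Nat.cast_ne_zero.2 hp.out.ne_zero
    change MC.jA (MC.affH (MC.posN p) 0 τ) = _
    rw [← jLat_tauPair, ← jLat_scalePair (tauPair _) (w₂ / p) (div_ne_zero hw₂ hp0)]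
    refine jLat_congr ?_
    change Submodule.span ℤ {w₂ / p * ((MC.affH (MC.posN p) 0 τ : ℍ) : ℂ), w₂ / p * 1} = _
    rw [MC.coe_affH, ← hL', ← hsgn, mul_one, hτ,
      show w₂ / (p : ℂ) * (((MC.posN p : {x : ℝ // 0 < x}) : ℝ) * ((ε : ℂ) * (w₁ / w₂)) + (0 : ℝ)) =
        ε * w₁ by
        rw [show (((MC.posN p : {x : ℝ // 0 < x}) : ℝ) : ℂ) = (p : ℂ) from Complex.ofReal_natCast p,
          Complex.ofReal_zero, add_zero]
        field_simp]

/-- A curve over `ℂ` with a point `Q` of order `p` has some `τ` where `j` and `j_N` take the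
invariants of the curve and of its quotient by `Q`. -/
theorem exists_tau_curve (p : ℕ) [hp : Fact p.Prime] [NeZero p] {W : Affine ℂ} (hΔ : W.Δ ≠ 0)
    {Q : W.Point} (hQ : addOrderOf Q = p) :
    ∃ τ : ℍ, MC.jA τ = W.c₄ ^ 3 / W.Δ ∧
      MC.jN p τ = (veluCurve W Q p).c₄ ^ 3 / (veluCurve W Q p).Δ := by
  obtain ⟨L, hU⟩ := exists_uniformizes W hΔ
  have hd := disc_ne_zero L
  obtain ⟨c, hc⟩ := ptHom_surjective L hd (toShort hU Q)
  have hcast : ∀ i : ℕ, ptHom L hd ((i : ℂ) * c) = toShort hU (i • Q) := fun i ↦ by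
    rw [map_nsmul, ← hc, ← map_nsmul, nsmul_eq_mul]
  have hnmem : (p : ℂ) * c ∈ L.lattice := by
    rw [← ptHom_eq_zero_iff L hd, hcast, ← hQ, addOrderOf_nsmul_eq_zero, map_zero]
  have hnot : ∀ i : ℕ, i ∈ Finset.Ico 1 p → (i : ℂ) * c ∉ L.lattice := fun i hi hmem ↦ by
    rw [← ptHom_eq_zero_iff L hd, hcast, map_eq_zero_iff _ (toShort_injective hU),
      ← addOrderOf_dvd_iff_nsmul_eq_zero, hQ] at hmem
    simp at hi
    exact absurd (Nat.le_of_dvd (by omega) hmem) (by omega)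
  obtain ⟨L', hL'⟩ := exists_refine L hp.out (by simpa using hnot 1 (by simp [hp.out.one_lt])) hnmem
  have hR : Refines L L' p c := ⟨hL', hnmem, hnot, hp.out.pos⟩
  obtain ⟨τ, h1, h2⟩ := exists_tau p hR
  exact ⟨τ, h1.trans (jLat_of_uniformizes hU),
    h2.trans (jLat_of_uniformizes (uniformizes_velu hU hQ hR hcast))⟩

/-! ### The place -/

open ModularCurve AlgebraicCurve
open Fermat.FF (placeOfValuationSubring OrdGE evalAt ordGE_iff_of_ne)
open Fermat.RED.Cusps (regSeries mem_regSeries_iff)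
open Fermat.MC (FN jL jNL tauPt jA jN)
open Fermat.JAC.X0 (embC)
open CongruenceSubgroup (Gamma0)

local notation "ℚbar" => AlgebraicClosure ℚ

/-- If `j τ` and `j_N τ` are algebraic, some place of `X₀(p)` over `ℚ̄` takes these two values. -/
theorem exists_place (p : ℕ) [NeZero p] {τ : ℍ} {x y : ℚbar}
    (hx : jA τ = embC x) (hy : jN p τ = embC y) :
    ∃ P : Place ℚbar (FN p ℚbar), OrdGE P (jL p ℚbar) 0 ∧ evalAt P (jL p ℚbar) = x ∧
      OrdGE P (jNL p ℚbar) 0 ∧ evalAt P (jNL p ℚbar) = y := by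
  have : Fermat.FF.IsFunctionField ℚbar (FN p ℚbar) := MC.isFunctionField_FN p embC
  set q : MC.CosetN p := ((1 : Matrix.SpecialLinearGroup (Fin 2) ℤ) : MC.CosetN p)
  set T := tauPt p embC τ q
  set V := (regSeries ℂ).comap T
  have hconst : ∀ c, algebraMap ℚbar (FN p ℚbar) c ∈ V := fun c => by
    rw [ValuationSubring.mem_comap, MC.tauPt_algebraMap, algebraMap_laurentSeries_eq_single,
      mem_regSeries_iff]
    exact fun n hn => HahnSeries.coeff_single_of_ne hn.ne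
  -- regular series with prescribed constant term
  have hps : ∀ (f : MC.W p), MC.Lvl.evPtQ (Gamma0 p) τ q f ∈ regSeries ℂ ∧
      (MC.Lvl.evPtQ (Gamma0 p) τ q f).coeff (0 : ℤ) = (f : ℍ → ℂ) τ := fun f => by
    have e : MC.Lvl.evPtQ (Gamma0 p) τ q f = MC.evPt τ (MC.Lvl.toFull (Gamma0 p) f) := by
      show MC.evPt τ (MC.Lvl.conjHom (Gamma0 p) q f) = _
      rw [MC.Lvl.conjHom_one]
    rw [e]
    refine ⟨mem_regSeries_iff.mpr fun n hn => ModularCurve.ofPowerSeries_coeff_of_neg _ hn, ?_⟩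
    change (HahnSeries.ofPowerSeries ℤ ℂ (MC.taylorPS _ _)).coeff ((0 : ℕ) : ℤ) = _
    rw [HahnSeries.ofPowerSeries_apply_coeff, MC.taylorPS_coeff_zero, MC.ext_coe, MC.Lvl.coe_toFull]
  have hLser := hps (MC.Lvl.jW (Gamma0 p))
  have hNser := hps (MC.Lvl.genY (Gamma0 p))
  rw [← MC.tau_jL p embC (MC.Lvl.evPtQ (Gamma0 p) τ q)
    (MC.Lvl.evPtQ_injective (Gamma0 p) τ q)] at hLser
  rw [← MC.tau_jNL p embC (MC.Lvl.evPtQ (Gamma0 p) τ q)
    (MC.Lvl.evPtQ_injective (Gamma0 p) τ q)] at hNser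
  -- a regular series with constant term `c` vanishes to positive order after subtracting `c`
  have hord : ∀ {f : FN p ℚbar} (c : ℚbar), T f ∈ regSeries ℂ → (T f).coeff (0 : ℤ) = embC c →
      f ≠ algebraMap ℚbar (FN p ℚbar) c → (f - algebraMap ℚbar (FN p ℚbar) c)⁻¹ ∉ V := by
    intro f c hreg h0 hne hmem
    rw [ValuationSubring.mem_comap, map_inv₀, map_sub, MC.tauPt_algebraMap,
      algebraMap_laurentSeries_eq_single] at hmem
    set g := T f - HahnSeries.single 0 (embC c)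
    have hg0 : g ≠ 0 := by
      have : T (f - algebraMap ℚbar (FN p ℚbar) c) ≠ 0 :=
        (map_ne_zero T).mpr (sub_ne_zero.mpr hne)
      rwa [map_sub, MC.tauPt_algebraMap, algebraMap_laurentSeries_eq_single] at this
    have hgc : ∀ n : ℤ, n ≤ 0 → g.coeff n = 0 := fun n hn => by
      rw [HahnSeries.coeff_sub]
      rcases hn.lt_or_eq with hn | rfl
      · rw [mem_regSeries_iff.mp hreg n hn, HahnSeries.coeff_single_of_ne hn.ne, sub_zero]
      · rw [h0, HahnSeries.coeff_single_same, sub_self]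
    have hgpos : 0 < g.order := lt_of_not_ge fun hle =>
      hg0 (HahnSeries.coeff_order_eq_zero.mp (hgc _ hle))
    rw [Fermat.HT.Cusp.mem_regSeries_iff_order (inv_ne_zero hg0)] at hmem
    have h1 := HahnSeries.order_mul hg0 (inv_ne_zero hg0)
    rw [mul_inv_cancel₀ hg0, HahnSeries.order_one] at h1
    omega
  have hjne : ∀ c, jL p ℚbar ≠ algebraMap ℚbar (FN p ℚbar) c := fun c h =>
    MC.transcendental_jL p (L := ℚbar) (h ▸ isAlgebraic_algebraMap c)
  have htop : V ≠ ⊤ := fun h => hord x hLser.1 (hLser.2.trans hx) (hjne x)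
    (h ▸ ValuationSubring.mem_top _)
  set P := placeOfValuationSubring (V := V) hconst htop
  have hV : ∀ f, OrdGE P f 0 ↔ T f ∈ regSeries ℂ := fun f => by
    rw [← Fermat.FF.mem_iff_ordGE]
    exact ValuationSubring.mem_comap
  have heval : ∀ {f : FN p ℚbar} (c : ℚbar), T f ∈ regSeries ℂ → (T f).coeff (0 : ℤ) = embC c →
      OrdGE P f 0 ∧ evalAt P f = c := by
    intro f c hreg h0
    have hf : OrdGE P f 0 := (hV f).mpr hreg
    refine ⟨hf, Fermat.FF.evalAt_eq ?_⟩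
    rcases eq_or_ne f (algebraMap ℚbar (FN p ℚbar) c) with rfl | hne
    · rw [sub_self]; exact Fermat.FF.ordGE_zero P 1
    have hne' := sub_ne_zero.mpr hne
    have h1 := hord c hreg h0 hne
    have h2 : ¬ OrdGE P (f - algebraMap ℚbar (FN p ℚbar) c)⁻¹ 0 := fun h => h1 ((hV _).mp h)
    rw [ordGE_iff_of_ne (inv_ne_zero hne'), P.ord_inv] at h2
    exact (ordGE_iff_of_ne hne').mpr (by omega)
  obtain ⟨a, b⟩ := heval x hLser.1 (hLser.2.trans hx)
  obtain ⟨a', b'⟩ := heval y hNser.1 (hNser.2.trans hy)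
  exact ⟨P, a, b, a', b'⟩

/-- The point of `X₀(p)` attached to an integral curve with a rational point of order `p`. -/
theorem exists_moduli_place (p : ℕ) [hp : Fact p.Prime] [NeZero p] (hp2 : p ≠ 2)
    (W : WeierstrassCurve ℤ) (hΔ : W.Δ ≠ 0) (Q : (overQbar W).Point)
    (hfix : ∀ σ : (AlgebraicClosure ℚ ≃ₐ[ℚ] AlgebraicClosure ℚ), σ • Q = Q)
    (hQ : addOrderOf Q = p) :
    ∃ (P : Place ℚbar (FN p ℚbar)) (x y : ℚ), x = (W.c₄ : ℚ) ^ 3 / W.Δ ∧
      OrdGE P (jL p ℚbar) 0 ∧ evalAt P (jL p ℚbar) = (x : ℚbar) ∧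
      OrdGE P (jNL p ℚbar) 0 ∧ evalAt P (jNL p ℚbar) = (y : ℚbar) := by
  obtain ⟨W', φ, m, hΔ', -, -, hc4, hc6⟩ :=
    exists_isogeny W hΔ hp.out hp2 hQ fun σ => ⟨1, by rw [one_smul]; exact hfix σ⟩
  set V := W.map (Int.castRingHom ℚ)
  let ι : ℚbar →ₐ[ℚ] ℂ := IsAlgClosed.lift
  set Qc : (V⁄ℂ : Affine ℂ).Point := Affine.Point.map ι Q
  have hQc : addOrderOf Qc = p :=
    (addOrderOf_injective _ (Affine.Point.map_injective ι) Q).trans hQ
  have hΔc : (V⁄ℂ : Affine ℂ).Δ ≠ 0 := by simpa [V, WeierstrassCurve.baseChange] using hΔ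
  obtain ⟨τ, hτ, hτ'⟩ := exists_tau_curve p hΔc hQc
  have hW4 : (V⁄ℂ : Affine ℂ).c₄ = (W.c₄ : ℂ) := by simp [V, WeierstrassCurve.baseChange]
  have hWD : (V⁄ℂ : Affine ℂ).Δ = (W.Δ : ℂ) := by simp [V, WeierstrassCurve.baseChange]
  have hemb : ∀ r : ℚ, embC (r : ℚbar) = (r : ℂ) := fun r => map_ratCast embC r
  refine (exists_place p (τ := τ) (x := ((W.c₄ : ℚ) ^ 3 / W.Δ : ℚ))
    (y := ((W'.c₄ : ℚ) ^ 3 / W'.Δ : ℚ)) ?_ ?_).elim fun P hP => ⟨P, _, _, rfl, hP⟩
  · rw [hτ, hW4, hWD, hemb]; push_cast; rfl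
  · rw [hτ', hemb]
    -- the integral quotient is Vélu's curve scaled by `p ^ m`
    set E := veluCurve (V⁄ℂ : Affine ℂ) Qc p
    have hN0 : ((p : ℂ) ^ m) ≠ 0 := pow_ne_zero _ (Nat.cast_ne_zero.mpr hp.out.ne_zero)
    have e4 : (W'.c₄ : ℂ) = ((p : ℂ) ^ m) ^ 4 * E.c₄ := by
      have h := congrArg ι hc4
      simp only [map_intCast, map_mul, map_pow, map_natCast, map_add, map_ofNat] at h
      rw [show ι (veluT (overQbar W) Q p) = veluT (V⁄ℂ : Affine ℂ) Qc p from
        (veluT_map ι Q p).symm, ← hW4] at h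
      rw [h, c₄_veluCurve]
    have e6 : (W'.c₆ : ℂ) = ((p : ℂ) ^ m) ^ 6 * E.c₆ := by
      have h := congrArg ι hc6
      simp only [map_intCast, map_mul, map_pow, map_natCast, map_add, map_ofNat] at h
      rw [show ι (veluT (overQbar W) Q p) = veluT (V⁄ℂ : Affine ℂ) Qc p from
          (veluT_map ι Q p).symm,
        show ι (veluU (overQbar W) Q p) = veluU (V⁄ℂ : Affine ℂ) Qc p from
          (veluU_map ι Q p).symm,
        show ((W.c₆ : ℤ) : ℂ) = (V⁄ℂ : Affine ℂ).c₆ by simp [V, WeierstrassCurve.baseChange],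
        show ((W.b₂ : ℤ) : ℂ) = (V⁄ℂ : Affine ℂ).b₂ by simp [V, WeierstrassCurve.baseChange]] at h
      rw [h, c₆_veluCurve]
    have hrel : (1728 : ℂ) * W'.Δ = (W'.c₄ : ℂ) ^ 3 - (W'.c₆ : ℂ) ^ 2 := by
      exact_mod_cast W'.c_relation
    have hD : (W'.Δ : ℂ) = ((p : ℂ) ^ m) ^ 12 * E.Δ := by
      rw [e4, e6] at hrel
      linear_combination (1 / 1728) * hrel - (((p : ℂ) ^ m) ^ 12 / 1728) * E.c_relation
    push_cast
    rw [e4, hD]
    field_simp

end Fermat.HT.Mazur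

end
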