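import Fermat.Agent.HT.Cusp.HeckeU

/-!
# Rational points with non-integral `j` reduce to a cusp through a rational class

With rational invariants a point near `∞` is the only one with its value of `j`, hence fixed by
Galois; otherwise its image by the Fricke involution is near `∞`.
-/

set_option autoImplicit false

attribute [local instance 10000] SubalgebraClass.toAlgebra HahnSeries.powerSeriesAlgebra

noncomputable section

open ModularCurve AlgebraicCurve

namespace Fermat.HT.Mazur

open Fermat.FF Fermat.MC Fermat.JAC Fermat.JAC.X0 Fermat.HT.Cusp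
open Fermat.HT.Cusp (Red)

local notation "Γℚ" => (AlgebraicClosure ℚ ≃ₐ[ℚ] AlgebraicClosure ℚ)

variable {p : ℕ} [hp : Fact p.Prime] [NeZero p] (R : Red p)

/-- Two points near `∞` with the same `j` are equal. -/
theorem near_unique {P P' : Pt p} (hP : R.Near P) (hP' : R.Near P')
    (h : OrdGE P (jL p Qbar) 0) (h' : OrdGE P' (jL p Qbar) 0)
    (he : evalAt P (jL p Qbar) = evalAt P' (jL p Qbar)) : P = P' := by
  classical
  by_contra hne
  have hτ : tau P = tau P' := by rw [(R.tau_eq hP h).2, (R.tau_eq hP' h').2, he]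
  obtain ⟨hA, h0⟩ := R.tau_small hP
  -- `j⁻¹ - τ P` reduces to `j⁻¹`, so it has a single zero among the places near `∞`
  set f := (jL p Qbar)⁻¹ - algebraMap Qbar (FN p Qbar) (tau P) with hf
  have hf0 : f ≠ 0 := fun e => by
    rw [hf, sub_eq_zero] at e
    apply Fermat.MC.transcendental_jL (N := p) (L := Qbar)
    rw [← inv_inv (jL p Qbar), e, ← map_inv₀]
    exact isAlgebraic_algebraMap _
  have hfi : R.Int' f := R.int_sub R.int_inv_jL (R.int_algebraMap hA)
  have hred : R.redT f = R.jbar⁻¹ := by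
    rw [hf, R.redT_sub R.int_inv_jL (R.int_algebraMap hA), R.redT_inv_jL, R.redT_algebraMap hA, h0,
      map_zero, sub_zero]
  have hsum := R.mapDomain_divOf hfi (by rw [hred]; exact inv_ne_zero R.jbar_ne_zero)
  rw [hred] at hsum
  have h1 := DFunLike.congr_fun hsum R.inf
  rw [R.sum_fibre, divOf_apply, R.inf.ord_inv, R.ord_inf_jbar, neg_neg, ← Finset.sum_filter] at h1
  set S := (divOf Qbar f).support.filter fun Q => R.r Q = R.inf
  have hnn : ∀ Q : Pt p, R.r Q = R.inf → 0 ≤ (divOf Qbar f) Q := fun Q hQ => by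
    rw [divOf_apply]
    exact ((R.ordGE_inv_jL (by rw [hQ, R.ord_inf_jbar]; omega)).sub
      (ordGE_algebraMap Q _)).le_ord hf0
  have hpos : ∀ Q : Pt p, R.Near Q → tau Q = tau P → 1 ≤ (divOf Qbar f) Q := fun Q hQ e => by
    rw [divOf_apply]
    have hs := evalAt_spec (R.ordGE_inv_jL (P := Q) (by
      rw [show R.r Q = R.inf from hQ, R.ord_inf_jbar]; omega))
    rw [show evalAt Q (jL p Qbar)⁻¹ = tau P from e] at hs
    exact hs.le_ord hf0
  have hmem : ∀ Q : Pt p, R.Near Q → tau Q = tau P → Q ∈ S := fun Q hQ e =>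
    Finset.mem_filter.mpr ⟨Finsupp.mem_support_iff.mpr (by have := hpos Q hQ e; omega), hQ⟩
  have hsub : ({P, P'} : Finset (Pt p)) ⊆ S := by
    intro Q hQ
    rcases Finset.mem_insert.mp hQ with rfl | hQ
    · exact hmem Q hP rfl
    · rw [Finset.mem_singleton.mp hQ]; exact hmem P' hP' hτ.symm
  have hle := Finset.sum_le_sum_of_subset_of_nonneg hsub
    (f := fun Q => (divOf Qbar f) Q) fun Q hQ _ => hnn Q (Finset.mem_filter.mp hQ).2
  rw [Finset.sum_pair hne] at hle
  have := hpos P hP rfl
  have := hpos P' hP' hτ.symm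
  omega

omit hp in
/-- Galois fixes the expansion of the two coordinates. -/
theorem galois_jL (σ : Γℚ) :
    arithmeticGalois (modularFunctionFieldFull p) σ • jL p Qbar = jL p Qbar ∧
      arithmeticGalois (modularFunctionFieldFull p) σ • jNL p Qbar = jNL p Qbar :=
  ⟨Subtype.ext (coeffMap_coeffEmb σ _), Subtype.ext (coeffMap_coeffEmb σ _)⟩

include R in
/-- Galois fixes the cusp `∞`: it is the cusp at which `j` has a simple pole. -/
theorem smul_pinf (σ : Γℚ) :
    arithmeticGalois (modularFunctionFieldFull p) σ • pinf p Qbar = pinf p Qbar := by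
  set g := arithmeticGalois (modularFunctionFieldFull p) σ
  have h1 : (g • pinf p Qbar).ord (jL p Qbar) = -1 := by
    conv_lhs => rw [← (galois_jL (p := p) σ).1]
    rw [SemilinearAut.ord_smul, ord_pinf_jL]
  have hn : ¬ OrdGE (g • pinf p Qbar) (jL p Qbar) 0 := fun h => by
    have := h.le_ord jL_ne_zero
    omega
  rcases cusp_of_not_ordGE R.finrank_jL hn with h | h
  · exact h
  · rw [h, ord_pzero_jL] at h1
    have := hp.out.two_le
    omega

/-- A point near `∞` with rational coordinates gives a rational class. -/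
theorem smul_cls_of_near {P : Pt p} (hP : R.Near P) (h : OrdGE P (jL p Qbar) 0)
    (h' : OrdGE P (jNL p Qbar) 0) {x y : ℚ} (hx : evalAt P (jL p Qbar) = (x : Qbar))
    (hy : evalAt P (jNL p Qbar) = (y : Qbar)) (σ : Γℚ) :
    arithmeticGalois (modularFunctionFieldFull p) σ • cls {P} = cls {P} := by
  set g := arithmeticGalois (modularFunctionFieldFull p) σ
  have hxA : evalAt P (jL p Qbar) ∉ R.A := R.not_mem_of_near hP h
  have hv := (R.near_iff h hxA).mp hP
  have e1 := ordGE_smul g h
  have e2 := evalAt_smul g h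
  have e3 := ordGE_smul g h'
  have e4 := evalAt_smul g h'
  rw [(galois_jL σ).1] at e1 e2
  rw [(galois_jL σ).2] at e3 e4
  have hb : ∀ q : ℚ, SemilinearAut.baseAut g (q : Qbar) = (q : Qbar) := fun q => map_ratCast σ q
  rw [hx, hb, ← hx] at e2
  rw [hy, hb, ← hy] at e4
  have hgP : g • P = P := near_unique R ((R.near_iff e1 (by rwa [e2])).mpr
    (by rwa [e2, e4])) hP e1 h e2
  rw [cls, SemilinearAut.pic0_smul_mk]
  refine congrArg Pic0.mk (Subtype.ext ?_)
  change g • nearDiv {P} = nearDiv {P}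
  have hs : ofMult ({P} : Multiset (Pt p)) = Finsupp.single P 1 := by
    rw [← Multiset.cons_zero, ofMult_cons,
      show ofMult (0 : Multiset (Pt p)) = 0 by simp [ofMult], add_zero]
  rw [nearDiv, hs, smul_sub, SemilinearAut.smul_single, SemilinearAut.smul_single, hgP, smul_pinf R]

/-- A rational point with non-integral invariant gives a point near `∞`. -/
theorem exists_near_rational {P : Pt p} (h : OrdGE P (jL p Qbar) 0)
    (h' : OrdGE P (jNL p Qbar) 0) {x y : ℚ} (hx : evalAt P (jL p Qbar) = (x : Qbar))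
    (hy : evalAt P (jNL p Qbar) = (y : Qbar)) (hxA : (x : Qbar) ∉ R.A) :
    ∃ (P' : Pt p) (z : ℚ), R.Near P' ∧ OrdGE P' (jL p Qbar) 0 ∧
      evalAt P' (jL p Qbar) = (z : Qbar) ∧ (z : Qbar) ∉ R.A ∧
      ∀ σ : Γℚ, arithmeticGalois (modularFunctionFieldFull p) σ • cls {P'} = cls {P'} := by
  by_cases hn : R.Near P
  · exact ⟨P, x, hn, h, hx, hxA, smul_cls_of_near R hn h h' hx hy⟩
  -- otherwise both coordinates are non-integral, and the Fricke image of `P` is near `∞`
  set W := placeVal R.A P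
  have hjW : jL p Qbar ∉ W := fun hm => hxA (hx ▸ hm.2)
  obtain ⟨ζ, hζ⟩ := Fermat.RED.exists_isPrimitiveRoot_unit Qbar p
    (Nat.cast_ne_zero.mpr hp.out.ne_zero)
  have hgt : 1 < W.valuation (jL p Qbar) := by rwa [← not_le, W.valuation_le_one_iff]
  obtain ⟨hgt', -⟩ := val_cases p W.valuation (Red.natCast_le W) hgt (y := jNL p Qbar)
    (Red.rel_eval (by
      rw [coe_jNL, coe_jL]
      have e := Fermat.RED.eval_modular_self_mul hζ 1
      rw [Fermat.RED.jb_one 1, qExpand_one_apply] at e
      simpa only [mul_one] using e))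
  have hnW : jNL p Qbar ∉ W := fun hm => not_le_of_gt hgt' ((W.valuation_le_one_iff _).mpr hm)
  have hyA : (y : Qbar) ∉ R.A := fun hm => hnW ⟨h', hy ▸ hm⟩
  set φ := (fricke p Qbar).toAlgHom
  have hf1 : φ (jL p Qbar) = jNL p Qbar := fricke_jL
  have hf2 : φ (jNL p Qbar) = jL p Qbar := fricke_jNL
  set P' := below φ P
  have hP'n : R.Near P' := by
    by_contra hc
    exact hn ((R.near_iff_not_near_fricke P (by rw [hf1]; exact hnW)).mpr hc)
  have hkey : ∀ {f : FN p Qbar}, OrdGE P (φ f) 0 → OrdGE P' f 0 ∧ evalAt P' f = evalAt P (φ f) := by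
    intro f hf
    have : OrdGE P' f 0 := by
      rcases eq_or_ne f 0 with rfl | hf0
      · exact ordGE_zero _ _
      have h1 := hf.le_ord ((map_ne_zero_iff _ φ.toRingHom.injective).mpr hf0)
      rw [ord_below] at h1
      exact (ordGE_iff_of_ne hf0).mpr
        (nonneg_of_mul_nonneg_right h1 (by exact_mod_cast ramificationIndexAlong_pos φ P))
    exact ⟨this, (evalAt_comp φ this).symm⟩
  obtain ⟨a, b⟩ := hkey (f := jL p Qbar) (by rw [hf1]; exact h')
  obtain ⟨a', b'⟩ := hkey (f := jNL p Qbar) (by rw [hf2]; exact h)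
  rw [hf1, hy] at b
  rw [hf2, hx] at b'
  exact ⟨P', y, hP'n, a, b, hyA, smul_cls_of_near R hP'n a a' b b'⟩

end Fermat.HT.Mazur

end
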