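import Fermat.Agent.HT.Mazur.Tower
import Fermat.Agent.HT.Isog.Semistable
import Fermat.Prelude.Def_ExtCitation_AdmissibleExtension_v2

/-!
# The inductive step of the descent

`stable_succ`: the quotient of the curve by its stable subgroup of order `p ^ k` carries a rational
point of order `p`, and its `p`-torsion is an admissible extension (by `StepThree`, taken as a
hypothesis here); the vanishing of `Ext` then makes the subgroup of order `p ^ (k + 1)` stable.
`Final` iterates this.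
-/

set_option autoImplicit false

open scoped Classical Pointwise
open Fermat.EC Fermat.EC.Val Fermat.EC.Red

noncomputable section

namespace Fermat.HT.Mazur

local notation "ℚbar" => AlgebraicClosure ℚ
local notation "Γℚ" => (AlgebraicClosure ℚ ≃ₐ[ℚ] AlgebraicClosure ℚ)

/-- Step three of Mazur's descent, in the shape of S15: a rational point of order
`p ∉ {2, 3, 5, 7, 13}` off the identity component at `2` and at `3` is off it at every prime
`ℓ ≠ p` of multiplicative reduction. Used as a hypothesis until `stepThree`. -/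
def StepThree : Prop :=
  ∀ {p : ℕ}, p.Prime → p ∉ ({2, 3, 5, 7, 13} : Finset ℕ) →
    ∀ (W : WeierstrassCurve ℤ), W.Δ ≠ 0 →
    ∀ (Q : (overQbar W).Point), (∀ σ : Γℚ, σ • Q = Q) → addOrderOf Q = p →
    (2 : ℤ) ∣ W.Δ → ¬ (2 : ℤ) ∣ W.c₄ →
    (∀ A : ValuationSubring ℚbar, A.LiesOverPrime 2 → ¬ W.InZeroComponentAt A Q) →
    (3 : ℤ) ∣ W.Δ → ¬ (3 : ℤ) ∣ W.c₄ →
    (∀ A : ValuationSubring ℚbar, A.LiesOverPrime 3 → ¬ W.InZeroComponentAt A Q) →
    ∀ {ℓ : ℕ}, ℓ.Prime → ℓ ≠ p → (ℓ : ℤ) ∣ W.Δ → ¬ (ℓ : ℤ) ∣ W.c₄ →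
    ∀ (A : ValuationSubring ℚbar), A.LiesOverPrime ℓ → ¬ W.InZeroComponentAt A Q

variable {W : WeierstrassCurve ℤ} {p : ℕ} {S : Setup W p}

/-- Multiples of a point killed by `p` depend only on the multiplier modulo `p`. -/
lemma nsmul_congr {U : WeierstrassCurve ℤ} {X : (overQbar U).Point} (hX : p • X = 0)
    {a b : ℕ} (h : (a : ZMod p) = b) : a • X = b • X := by
  rw [← Cyclo.natCast_val_nsmul hX a, h, Cyclo.natCast_val_nsmul hX b]

/-- The primes `q` with `q ² + 1 < p` are bad. -/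
lemma Tower.dvd_Δ [Fact p.Prime] (τ : Tower S) {q : ℕ} (hq : q.Prime) (hqp : q ^ 2 + 1 < p) :
    (q : ℤ) ∣ W.Δ := by
  obtain ⟨B, hB⟩ := Fermat.CFT.exists_place hq
  obtain ⟨σ, hσ⟩ := Fermat.CFT.exists_isFrobeniusAt hq hB
  -- `σ` fixes a nonzero `p`-torsion point, as it is trivial on the quotient by the line
  obtain ⟨X, hX, hX0, hfix⟩ :
      ∃ X : (overQbar W).Point, p • X = 0 ∧ X ≠ 0 ∧ σ • X = X := by
    obtain ⟨k, hk⟩ := S.stab σ
    have hT : p • τ.T 1 = 0 := by simpa using τ.tors_T 1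
    obtain ⟨c, hc⟩ := S.cofixed σ (τ.T 1) hT
    by_cases h1 : (k : ZMod p) = 1
    · refine ⟨S.P₀, S.hP, S.hP0, ?_⟩
      rw [hk, nsmul_congr S.hP (show (k : ZMod p) = (1 : ℕ) by simpa using h1), one_nsmul]
    · set x := ((c : ZMod p) * (1 - (k : ZMod p))⁻¹).val with hx
      refine ⟨τ.T 1 + x • S.P₀, ?_, fun e => τ.T_one (-(x : ℤ)) ?_, ?_⟩
      · rw [nsmul_add, hT, zero_add, smul_comm, S.hP, nsmul_zero]
      · rw [neg_zsmul, natCast_zsmul]
        exact eq_neg_of_add_eq_zero_left e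
      · have hmod : ((c + x * k : ℕ) : ZMod p) = (x : ℕ) := by
          have hne : (1 : ZMod p) - k ≠ 0 := sub_ne_zero.mpr (Ne.symm h1)
          push_cast
          rw [hx, ZMod.natCast_zmod_val]
          field_simp
          ring
        rw [gal_smul_add, gal_smul_nsmul, hk, sub_eq_iff_eq_add.mp hc, ← nsmul_congr S.hP hmod,
          add_nsmul, mul_nsmul']
        abel
  by_contra hgood
  exact not_inE0_of_fixed ⟨hq, hB⟩ hσ S.hp hqp hfix (addOrderOf_eq_prime hX hX0)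
    (inE0_of_good W ⟨hq, hB⟩ hgood X)

/-- The quotient by the subgroup of order `p ^ k`. -/
structure Quot (τ : Tower S) (k : ℕ) : Type where
  /-- The quotient curve. -/
  V : WeierstrassCurve ℤ
  /-- The isogeny to the quotient curve, on points. -/
  φ : (overQbar W).Point →+ (overQbar V).Point
  /-- The target is non-singular. -/
  hΔ : V.Δ ≠ 0
  /-- The isogeny commutes with Galois. -/
  equiv : ∀ (σ : Γℚ) (X : (overQbar W).Point), φ (σ • X) = σ • φ X
  /-- The kernel is generated by the point `τ.P k`. -/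
  ker : ∀ X, φ X = 0 ↔ ∃ a : ℤ, X = a • τ.P k
  /-- Multiplicative reduction persists away from `p`. -/
  bad : ∀ q : ℕ, q.Prime → q ≠ p → (q : ℤ) ∣ W.Δ → (q : ℤ) ∣ V.Δ ∧ ¬ (q : ℤ) ∣ V.c₄

/-- The zeroth quotient: `W` itself. -/
def Quot.zero (τ : Tower S) : Quot τ 0 where
  V := W
  φ := AddMonoidHom.id _
  hΔ := S.hΔ
  equiv _ _ := rfl
  ker X := ⟨fun h => ⟨0, by simpa using h⟩, fun ⟨a, ha⟩ => by
    rw [ha, τ.P_zero, zsmul_zero, map_zero]⟩
  bad q hq _ hd := ⟨hd, S.hss q hq hd⟩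

namespace Quot

variable [Fact p.Prime] {τ : Tower S} {ζ : ℚbar} (hζ : IsPrimitiveRoot ζ p) {k : ℕ}

omit [Fact p.Prime] in
/-- Modulo the subgroup generated by `P (k + 1)` the image of `T 1` is fixed by Galois: the
cofixed property puts `σ T 1 - T 1` on the line of `P 1`, which dies in the quotient. -/
lemma image_T_fixed {U : WeierstrassCurve ℤ} (φ : (overQbar W).Point →+ (overQbar U).Point)
    (hσ : ∀ (σ : Γℚ) (X : (overQbar W).Point), φ (σ • X) = σ • φ X)
    (hker : ∀ X, φ X = 0 ↔ ∃ a : ℤ, X = a • τ.P (k + 1)) (σ : Γℚ) :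
    σ • φ (τ.T 1) = φ (τ.T 1) := by
  obtain ⟨c, hc⟩ := S.cofixed σ (τ.T 1) (by simpa using τ.tors_T 1)
  have hP0 : φ S.P₀ = 0 :=
    (hker _).mpr ⟨(p ^ k : ℕ), by rw [natCast_zsmul, τ.pow_P 1 k, τ.P_one]⟩
  rw [← hσ, sub_eq_iff_eq_add.mp hc, map_add, map_nsmul, hP0, nsmul_zero, zero_add]

include hζ in
/-- The image of `T 1` has order `p`: it is killed by `p` and `T 1` is not in the kernel of
reduction. -/
lemma image_T_ord {U : WeierstrassCurve ℤ} (φ : (overQbar W).Point →+ (overQbar U).Point)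
    (hker : ∀ X, φ X = 0 ↔ ∃ a : ℤ, X = a • τ.P k) : addOrderOf (φ (τ.T 1)) = p := by
  refine addOrderOf_eq_prime (by rw [← map_nsmul, τ.T_succ 0, τ.T_zero, map_zero]) fun e => ?_
  obtain ⟨a, ha⟩ := (hker _).mp e
  have h := τ.dvd_of_T hζ (n := 1) (b := 1) (by
    rw [one_zsmul, ha]; exact inE1_zsmul S.hA (τ.P_mem k) a)
  rw [pow_one] at h
  have := Int.le_of_dvd one_pos h
  have := S.hp17
  omega

/-- The image of `P (k + 1)` is killed by `p` and is not zero. -/
lemma v_spec (L : Quot τ k) :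
    p • L.φ (τ.P (k + 1)) = 0 ∧ L.φ (τ.P (k + 1)) ≠ 0 := by
  refine ⟨by rw [← map_nsmul, τ.P_succ, (L.ker _).mpr ⟨1, (one_zsmul _).symm⟩], fun e => ?_⟩
  obtain ⟨a, ha⟩ := (L.ker _).mp e
  have h0 : (1 - a * (p : ℤ)) • τ.P (k + 1) = 0 := by
    rw [sub_zsmul, one_zsmul, mul_smul, natCast_zsmul, τ.P_succ, ← ha, add_neg_cancel]
  have h1 : (p : ℤ) ∣ 1 - a * p := (dvd_pow_self _ (Nat.succ_ne_zero k)).trans (τ.dvd_of_P h0)
  have h2 : (p : ℤ) ∣ 1 := by simpa using dvd_add h1 (dvd_mul_left (p : ℤ) a)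
  have := Int.le_of_dvd one_pos h2
  have := S.hp17
  omega

include hζ in
/-- Passing to the next quotient. -/
theorem exists_succ (L : Quot τ k) (hst : τ.Stable (k + 1)) : Nonempty (Quot τ (k + 1)) := by
  have hp2 : p ≠ 2 := by have := S.hp17; omega
  obtain ⟨hv, hv0⟩ := L.v_spec
  set v := L.φ (τ.P (k + 1)) with hvdef
  have hvord : addOrderOf v = p := addOrderOf_eq_prime hv hv0
  have hvst : ∀ σ : Γℚ, ∃ j : ℕ, σ • v = j • v := fun σ => by
    obtain ⟨a, ha⟩ := hst σ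
    refine ⟨((a : ZMod p)).val, ?_⟩
    rw [hvdef, ← L.equiv, ha, map_zsmul, ← hvdef, ← natCast_zsmul, ZMod.val_intCast,
      ← zsmul_eq_zsmul_iff_modEq.mpr ?_]
    rw [hvord]
    exact Int.mod_modEq a p
  -- compose with the isogeny killing the image of `P (k + 1)`
  obtain ⟨U, ψ, m, hUΔ, hψ, hψσ, hc4, hc6⟩ :=
    Fermat.HT.Isog.exists_isogeny L.V L.hΔ S.hp hp2 hvord hvst
  have hker : ∀ X, ψ.comp L.φ X = 0 ↔ ∃ a : ℤ, X = a • τ.P (k + 1) := by
    intro X
    rw [AddMonoidHom.comp_apply, hψ]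
    constructor
    · rintro ⟨j, hj⟩
      obtain ⟨a, ha⟩ := (L.ker (X - (j : ℤ) • τ.P (k + 1))).mp (by
        rw [map_sub, map_zsmul, ← hvdef, natCast_zsmul, hj, sub_self])
      refine ⟨j + a * p, ?_⟩
      rw [add_zsmul, mul_smul, natCast_zsmul _ p, τ.P_succ, ← ha]
      abel
    · rintro ⟨a, rfl⟩
      refine ⟨((a : ZMod p)).val, ?_⟩
      rw [map_zsmul, ← hvdef, ← natCast_zsmul, ZMod.val_intCast]
      refine zsmul_eq_zsmul_iff_modEq.mpr ?_
      rw [hvord]
      exact Int.mod_modEq a p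
  refine ⟨⟨U, ψ.comp L.φ, hUΔ, fun σ X => ?_, hker, fun q hq hqp hd => ?_⟩⟩
  · rw [AddMonoidHom.comp_apply, AddMonoidHom.comp_apply, L.equiv, hψσ]
  -- reduction stays multiplicative; for `q < 5` because the image of `T 1` is fixed by Frobenius
  obtain ⟨hVΔ, hVc⟩ := L.bad q hq hqp hd
  obtain ⟨h1, h2⟩ :=
    Fermat.HT.Isog.isog_mult L.hΔ S.hp hp2 hvord hc4 hc6 hq hqp hVΔ hVc
  refine ⟨?_, h1⟩
  by_cases h5 : 5 ≤ q
  · exact h2 h5
  by_contra hgood
  obtain ⟨B, hB⟩ := Fermat.CFT.exists_place hq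
  obtain ⟨σ, hσ⟩ := Fermat.CFT.exists_isFrobeniusAt hq hB
  have hq4 : q ^ 2 + 1 < p := by
    have := S.hp17
    have h4 : q ≤ 3 := by
      rcases (show q = 4 ∨ q ≤ 3 by omega) with rfl | h3
      · exact absurd hq (by norm_num)
      · exact h3
    nlinarith [Nat.mul_le_mul h4 h4]
  exact not_inE0_of_fixed ⟨hq, hB⟩ hσ S.hp hq4
    (image_T_fixed (ψ.comp L.φ) (fun σ X => by
      rw [AddMonoidHom.comp_apply, AddMonoidHom.comp_apply, L.equiv, hψσ]) hker σ)
    (image_T_ord hζ (ψ.comp L.φ) hker) (inE0_of_good U ⟨hq, hB⟩ hgood _)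

include hζ in
/-- Galois on the image of `P (k + 1)`. -/
lemma gal_v (L : Quot τ k) (hk : 1 ≤ k) (hst : τ.Stable k) (σ : Γℚ) :
    ∃ c : ℕ, σ • L.φ (τ.P (k + 1)) =
      (Dichotomy.chi hζ σ).val • L.φ (τ.P (k + 1)) + c • L.φ (τ.T 1) := by
  obtain ⟨hI, -, -⟩ := S.line hζ
  obtain ⟨a, b, e⟩ := τ.decomp (n := k + 1) (X := σ • τ.P (k + 1))
    (by rw [← gal_smul_nsmul, τ.tors_P, gal_smul_zero])
  obtain ⟨s, hs⟩ := hst σ
  have e1 : σ • τ.P k = a • τ.P k + b • τ.T k := by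
    rw [← τ.P_succ k, gal_smul_nsmul, e, nsmul_add, smul_comm p a, smul_comm p b, τ.P_succ,
      τ.T_succ]
  have hb : InE1 S.A p (b • τ.T k) := by
    have : b • τ.T k = (s - a) • τ.P k := by
      rw [sub_zsmul, ← hs, e1]; abel
    rw [this]
    exact inE1_zsmul S.hA (τ.P_mem k) _
  -- stability one level down makes the coefficient of `T (k + 1)` divisible by `p ^ k`
  obtain ⟨b', rfl⟩ := τ.dvd_of_T hζ hb
  have hT : ((p : ℤ) ^ k * b') • τ.T (k + 1) = b' • τ.T 1 := by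
    rw [mul_comm, mul_smul, ← Nat.cast_pow, natCast_zsmul, τ.pow_T 1 k]
  rw [hT] at e
  -- multiplying by `p ^ k` reads off `a ≡ χ σ` on the line of `P₀`
  have ha : ((Dichotomy.chi hζ σ).val : ℤ) ≡ a [ZMOD p] := by
    have h1 := congrArg (fun X => (p ^ k) • X) e
    simp only [nsmul_add, ← gal_smul_nsmul] at h1
    rw [smul_comm _ a, τ.pow_P 1 k, τ.P_one, smul_comm _ b',
      show p ^ k • τ.T 1 = 0 by
        obtain ⟨j, rfl⟩ := Nat.exists_eq_add_of_le hk
        rw [add_comm, pow_succ, mul_nsmul', τ.T_succ 0, τ.T_zero, nsmul_zero],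
      zsmul_zero, add_zero, hI σ, ← natCast_zsmul] at h1
    have h2 := zsmul_eq_zsmul_iff_modEq.mp h1
    rwa [addOrderOf_eq_prime S.hP S.hP0] at h2
  refine ⟨(b' : ZMod p).val, ?_⟩
  have hQ : addOrderOf (L.φ (τ.T 1)) = p := image_T_ord hζ L.φ L.ker
  rw [← L.equiv, e, map_add, map_zsmul, map_zsmul, ← natCast_zsmul _ (Dichotomy.chi hζ σ).val,
    ← natCast_zsmul (L.φ (τ.T 1)), ZMod.val_intCast]
  congr 1
  · refine zsmul_eq_zsmul_iff_modEq.mpr ?_
    rw [addOrderOf_eq_prime (L.v_spec).1 (L.v_spec).2]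
    exact ha.symm
  · refine zsmul_eq_zsmul_iff_modEq.mpr ?_
    rw [hQ]
    exact (Int.mod_modEq b' p).symm

/-- The `p`-torsion of the target. -/
abbrev Vp (L : Quot τ k) : Type :=
  Submodule.torsionBy ℤ (overQbar L.V).Point (p : ℤ)

/-- Galois commutes with the scalars of `ZMod p` on the `p`-torsion of the target. -/
lemma smulComm (L : Quot τ k) : SMulCommClass Γℚ (ZMod p) L.Vp :=
  ⟨fun σ c x => by
    rw [← ZMod.natCast_zmod_val c, Nat.cast_smul_eq_nsmul, Nat.cast_smul_eq_nsmul, smul_comm]⟩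

/-- A scalar of `ZMod p` acts as its representative below `p`. -/
lemma coe_smulV (L : Quot τ k) (c : ZMod p) (x : L.Vp) :
    ((c • x : L.Vp) : (overQbar L.V).Point) = c.val • (x : (overQbar L.V).Point) := by
  conv_lhs => rw [← ZMod.natCast_zmod_val c, Nat.cast_smul_eq_nsmul]
  rfl

include hζ in
/-- A `p`-torsion point of the quotient is a combination of the images of the two generators. -/
lemma exists_comb (L : Quot τ k) {X : (overQbar L.V).Point} (hX : p • X = 0) :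
    ∃ a b : ℕ, X = a • L.φ (τ.P (k + 1)) + b • L.φ (τ.T 1) := by
  have hQ : addOrderOf (L.φ (τ.T 1)) = p := image_T_ord hζ L.φ L.ker
  obtain ⟨hv, -⟩ := L.v_spec
  have hQp : p • L.φ (τ.T 1) = 0 := addOrderOf_dvd_iff_nsmul_eq_zero.mp hQ.dvd
  have hQ0 : L.φ (τ.T 1) ≠ 0 := fun e => by
    rw [e, addOrderOf_zero] at hQ
    exact (Fact.out : p.Prime).one_lt.ne hQ
  obtain ⟨ε, hε⟩ := Dichotomy.exists_pair_equiv L.hΔ (u := ⟨_, hQp⟩)
    (v := ⟨L.φ (τ.P (k + 1)), hv⟩) (fun e => hQ0 (congrArg Subtype.val e)) fun c e => by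
      have e' := congrArg Subtype.val e
      rw [Dichotomy.coe_smulT] at e'
      simp only at e'
      obtain ⟨a, ha⟩ := (L.ker (τ.P (k + 1) - c.val • τ.T 1)).mp (by
        rw [map_sub, map_nsmul, ← e', sub_self])
      have h1 : InE1 S.A p ((c.val : ℤ) • τ.T 1) := by
        rw [natCast_zsmul, show c.val • τ.T 1 = τ.P (k + 1) - a • τ.P k by rw [← ha]; abel]
        exact inE1_sub S.hA (τ.P_mem _) (inE1_zsmul S.hA (τ.P_mem k) a)
      have h2 := τ.dvd_of_T hζ h1
      rw [pow_one, Int.natCast_dvd_natCast] at h2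
      rw [show c.val = 0 from Nat.eq_zero_of_dvd_of_lt h2 (ZMod.val_lt c), zero_nsmul] at e'
      exact L.v_spec.2 e'
  obtain ⟨⟨a, b⟩, hab⟩ := ε.surjective ⟨X, hX⟩
  rw [hε] at hab
  refine ⟨a.val, b.val, ?_⟩
  have := congrArg Subtype.val hab
  rw [AddSubgroup.coe_add, Dichotomy.coe_smulT, Dichotomy.coe_smulT] at this
  exact this.symm

include hζ in
/-- At a prime `ℓ ≠ p` inertia fixes the image of `P (k + 1)`. -/
lemma v_unramified (h15 : StepThree) (L : Quot τ (k + 1)) (hst : τ.Stable (k + 1)) {ℓ : ℕ}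
    (hℓ : ℓ.Prime) (hℓp : ℓ ≠ p) {B : ValuationSubring ℚbar} (hB : B.LiesOverPrime ℓ) {σ : Γℚ}
    (hσ : IsInert B σ) : σ • L.φ (τ.P (k + 1 + 1)) = L.φ (τ.P (k + 1 + 1)) := by
  have h : IsPlace B ℓ := ⟨hℓ, hB⟩
  have hp := S.hp
  have hp17 := S.hp17
  have hndvd : ∀ n, ¬ ℓ ∣ p ^ n := fun n hd =>
    hℓp ((Nat.prime_dvd_prime_iff_eq hℓ hp).mp (hℓ.dvd_of_dvd_pow hd))
  -- at a good prime of `W` the point `P (k + 2)` itself is unramified
  by_cases hbad : (ℓ : ℤ) ∣ W.Δ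
  swap
  · rw [← L.equiv]
    congr 1
    refine sub_eq_zero.mp (eq_zero_of_nsmul_eq_zero h (integralAt_overQbar W h)
      (smul_sub_inE1 W h hσ (inE0_of_good W h hbad _)) (hndvd (k + 1 + 1))
      (nsmul_gal_sub W (τ.tors_P _)))
  obtain ⟨hVΔ, hVc⟩ := L.bad ℓ hℓ hℓp hbad
  have hQfix : ∀ σ, σ • L.φ (τ.T 1) = L.φ (τ.T 1) := image_T_fixed L.φ L.equiv L.ker
  have hQ : addOrderOf (L.φ (τ.T 1)) = p := image_T_ord hζ L.φ L.ker
  have hsmall : ∀ q : ℕ, q.Prime → q ^ 2 + 1 < p → q ≠ p →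
      ((q : ℤ) ∣ L.V.Δ ∧ ¬ (q : ℤ) ∣ L.V.c₄) ∧
        ∀ C : ValuationSubring ℚbar, C.LiesOverPrime q →
          ¬ L.V.InZeroComponentAt C (L.φ (τ.T 1)) := fun q hq hqs hqp =>
    ⟨L.bad q hq hqp (τ.dvd_Δ hq hqs), fun C hC => by
      obtain ⟨g, hg⟩ := Fermat.CFT.exists_isFrobeniusAt hq hC
      rw [inZeroComponentAt_iff ⟨hq, hC⟩]
      exact not_inE0_of_fixed ⟨hq, hC⟩ hg hp hqs (hQfix g) hQ⟩
  -- the rational point is off the identity component at `2` and `3`, hence at `ℓ` by step three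
  obtain ⟨⟨h2Δ, h2c⟩, h2E⟩ := hsmall 2 Nat.prime_two (by omega) (by omega)
  obtain ⟨⟨h3Δ, h3c⟩, h3E⟩ := hsmall 3 Nat.prime_three (by omega) (by omega)
  have hnE : ¬ InE0 B ℓ (L.φ (τ.T 1)) := by
    rw [← inZeroComponentAt_iff h]
    exact h15 hp (by simp; omega) L.V L.hΔ _ hQfix hQ (by exact_mod_cast h2Δ)
      (by exact_mod_cast h2c) h2E (by exact_mod_cast h3Δ) (by exact_mod_cast h3c) h3E hℓ hℓp hVΔ
      hVc B hB
  -- `σ v - v = c Q` lies in `E₀`, so `p ∣ c`
  obtain ⟨c, hc⟩ := L.gal_v hζ (by omega) hst σ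
  have hχ : Dichotomy.chi hζ σ = 1 :=
    Dichotomy.chi_eq_one_of_fix hζ (Cyclo.apply_zeta_eq h hp hℓp hζ hσ)
  rw [hχ, ZMod.val_one, one_nsmul] at hc
  by_cases hcp : p ∣ c
  · obtain ⟨d, rfl⟩ := hcp
    rw [hc, mul_comm, mul_nsmul', addOrderOf_dvd_iff_nsmul_eq_zero.mp hQ.dvd, nsmul_zero,
      add_zero]
  exfalso
  apply hnE
  have hW := integralAt_overQbar L.V h
  have h0 := smul_sub_inE0_odd h hσ L.hΔ (fun _ => hVc)
    (hp.odd_of_ne_two (by omega)) (L.v_spec).1
  rw [hc, add_sub_cancel_left] at h0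
  exact inE0_of_nsmul h hW (addOrderOf_dvd_iff_nsmul_eq_zero.mp hQ.dvd)
    ((hp.coprime_iff_not_dvd.mpr hcp).symm) hp.pos h0

attribute [local instance] smulComm

/-- The image of `P (k + 1)` in the `p`-torsion of the target. -/
def vVec (L : Quot τ k) : L.Vp :=
  ⟨L.φ (τ.P (k + 1)), by rw [Submodule.mem_torsionBy_iff, natCast_zsmul, L.v_spec.1]⟩

/-- The image of `T 1` in the `p`-torsion of the target. -/
def qVec (L : Quot τ k) : L.Vp :=
  ⟨L.φ (τ.T 1), by
    rw [Submodule.mem_torsionBy_iff, natCast_zsmul, ← map_nsmul, τ.T_succ 0, τ.T_zero, map_zero]⟩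

/-- The line of the rational point of order `p`. -/
def qLine (L : Quot τ k) : Submodule (ZMod p) L.Vp := Submodule.span (ZMod p) {L.qVec}

omit [Fact p.Prime] in
/-- Galois fixes the rational point. -/
lemma smul_qVec (L : Quot τ (k + 1)) (σ : Γℚ) : σ • L.qVec = L.qVec :=
  Subtype.ext (image_T_fixed L.φ L.equiv L.ker σ)

/-- A multiple of the rational point lies in its line and conversely. -/
lemma mem_qLine (L : Quot τ k) {x : L.Vp} : x ∈ L.qLine ↔ ∃ b : ZMod p, x = b • L.qVec := by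
  rw [qLine, Submodule.mem_span_singleton]
  exact ⟨fun ⟨b, hb⟩ => ⟨b, hb.symm⟩, fun ⟨b, hb⟩ => ⟨b, hb.symm⟩⟩

include hζ in
/-- An element keeping `P (k + 1)` in the kernel of reduction acts on its image by a scalar. -/
lemma exists_smul_vVec_eq (L : Quot τ k) {f : Γℚ} (hf : InE1 S.A p (f • τ.P (k + 1))) :
    ∃ j : ZMod p, f • L.vVec = j • L.vVec := by
  obtain ⟨j, hj⟩ := τ.of_inE1 hζ (n := k + 1) (X := f • τ.P (k + 1))
    (by rw [← gal_smul_nsmul, τ.tors_P, gal_smul_zero]) hf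
  refine ⟨(j : ZMod p), Subtype.ext ?_⟩
  rw [L.coe_smulV]
  change f • L.φ (τ.P (k + 1)) = (j : ZMod p).val • L.φ (τ.P (k + 1))
  rw [← natCast_zsmul, ZMod.val_intCast, ← L.equiv, hj, map_zsmul]
  refine zsmul_eq_zsmul_iff_modEq.mpr ?_
  rw [addOrderOf_eq_prime L.v_spec.1 L.v_spec.2]
  exact (Int.mod_modEq j p).symm

include hζ in
/-- The rational point is not zero. -/
lemma qVec_ne_zero (L : Quot τ k) : L.qVec ≠ 0 := fun e => by
  have h : L.φ (τ.T 1) = 0 := congrArg Subtype.val e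
  have hQord := image_T_ord hζ L.φ L.ker
  rw [h, addOrderOf_zero] at hQord
  exact S.hp.one_lt.ne hQord

include hζ in
/-- The two images span the `p`-torsion. -/
lemma exists_eq_comb (L : Quot τ k) (x : L.Vp) :
    ∃ a b : ZMod p, x = a • L.vVec + b • L.qVec := by
  obtain ⟨a, b, e⟩ := L.exists_comb hζ (X := x.1) (by
    have := x.2
    rwa [Submodule.mem_torsionBy_iff, natCast_zsmul] at this)
  refine ⟨a, b, Subtype.ext ?_⟩
  rw [Submodule.coe_add, L.coe_smulV, L.coe_smulV]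
  change x.1 = (a : ZMod p).val • L.φ (τ.P (k + 1)) + (b : ZMod p).val • L.φ (τ.T 1)
  rw [Cyclo.natCast_val_nsmul L.v_spec.1,
    Cyclo.natCast_val_nsmul (addOrderOf_dvd_iff_nsmul_eq_zero.mp (image_T_ord hζ L.φ L.ker).dvd)]
  exact e

include hζ in
/-- The line of the rational point has order `p`. -/
lemma card_qLine (L : Quot τ k) : Nat.card L.qLine = p := by
  rw [qLine, ← Nat.card_congr
    (LinearEquiv.toSpanNonzeroSingleton (ZMod p) L.Vp L.qVec (L.qVec_ne_zero hζ)).toEquiv,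
    Nat.card_zmod]

include hζ in
/-- The image of `P (k + 1)` is independent of the rational point. -/
lemma eq_zero_of_smul_vVec_mem (L : Quot τ k) {a : ZMod p} (ha : a • L.vVec ∈ L.qLine) :
    a = 0 := by
  by_contra ha0
  have hvmem : L.vVec ∈ L.qLine := by
    simpa [smul_smul, inv_mul_cancel₀ ha0] using L.qLine.smul_mem a⁻¹ ha
  have htop : L.qLine = ⊤ := eq_top_iff.mpr fun x _ => by
    obtain ⟨a, b, rfl⟩ := L.exists_eq_comb hζ x
    exact L.qLine.add_mem (L.qLine.smul_mem a hvmem)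
      (L.qLine.smul_mem b (Submodule.mem_span_singleton_self _))
  have hcard := L.card_qLine hζ
  rw [htop, Nat.card_congr Submodule.topEquiv.toEquiv,
    card_torsionBy (Fermat.EC.Line.Δ_overQbar_ne L.hΔ) S.hp.one_le, sq] at hcard
  have := S.hp.two_le
  nlinarith

include hζ in
/-- Galois on the image of `P (k + 2)` modulo the rational point. -/
lemma exists_smul_vVec (L : Quot τ (k + 1)) (hst : τ.Stable (k + 1)) (σ : Γℚ) :
    ∃ c : ZMod p, σ • L.vVec = Dichotomy.chi hζ σ • L.vVec + c • L.qVec := by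
  obtain ⟨c, hc⟩ := L.gal_v hζ (by omega) hst σ
  refine ⟨c, Subtype.ext ?_⟩
  rw [Submodule.coe_add, L.coe_smulV, L.coe_smulV]
  change σ • L.φ (τ.P (k + 1 + 1)) = _ + (c : ZMod p).val • L.φ (τ.T 1)
  rw [Cyclo.natCast_val_nsmul
    (addOrderOf_dvd_iff_nsmul_eq_zero.mp (image_T_ord hζ L.φ L.ker).dvd), hc]
  rfl

include hζ in
/-- At every place over `p` the line of the rational point has a stable complement. -/
lemma exists_local_complement (L : Quot τ (k + 1)) (hst : τ.Stable (k + 1))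
    {A' : ValuationSubring ℚbar} (hA' : A'.LiesOverPrime p) :
    ∃ C' : Submodule (ZMod p) L.Vp,
      (∀ σ ∈ A'.decompositionSubgroup ℚ, ∀ x ∈ C', σ • x ∈ C') ∧ IsCompl L.qLine C' := by
  -- the place is `g • S.A`; the complement is the line of `g • v`
  obtain ⟨g, hg⟩ := Fermat.CFT.exists_smul_place S.hp S.hA.2 hA'
  refine ⟨Submodule.span (ZMod p) {g • L.vVec}, fun σ hσ x hx => ?_, ?_⟩
  · obtain ⟨a, rfl⟩ := Submodule.mem_span_singleton.mp hx
    -- it is stable, as the conjugate of `σ` into the decomposition group scales `v`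
    set f := g⁻¹ * σ * g with hf
    have hfA : f ∈ S.A.decompositionSubgroup ℚ := by
      change f • S.A = S.A
      have hσA : σ • A' = A' := hσ
      rw [hf, mul_smul, mul_smul, hg, hσA, ← hg, inv_smul_smul]
    obtain ⟨j, e⟩ := L.exists_smul_vVec_eq hζ (inE1_smul_decomp S.hA hfA (τ.P_mem _))
    rw [smul_comm σ a, show σ • g • L.vVec = g • f • L.vVec by rw [hf, mul_smul, mul_smul,
      smul_inv_smul], e, smul_comm g j]
    exact Submodule.smul_mem _ _ (Submodule.smul_mem _ _ (Submodule.mem_span_singleton_self _))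
  -- it is a complement, as `g • v` is a nonzero multiple of `v` modulo the rational line
  · obtain ⟨c, hc⟩ := L.exists_smul_vVec hζ hst g
    have hQC : L.qVec ∈ L.qLine := Submodule.mem_span_singleton_self _
    have hχ : Dichotomy.chi hζ g ≠ 0 := Units.ne_zero _
    constructor
    · rw [Submodule.disjoint_def]
      intro x hxC hx
      obtain ⟨a, rfl⟩ := Submodule.mem_span_singleton.mp hx
      obtain ⟨b, hb⟩ := L.mem_qLine.mp hxC
      rw [hc] at hb
      have : (a * Dichotomy.chi hζ g) • L.vVec = (b - a * c) • L.qVec := by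
        rw [sub_smul, ← hb]; module
      have := L.eq_zero_of_smul_vVec_mem hζ (this ▸ L.qLine.smul_mem _ hQC)
      rw [mul_eq_zero] at this
      rw [this.resolve_right hχ, zero_smul]
    · rw [codisjoint_iff, eq_top_iff]
      intro x _
      obtain ⟨a, b, rfl⟩ := L.exists_eq_comb hζ x
      have e : L.vVec = (Dichotomy.chi hζ g)⁻¹ • (g • L.vVec - c • L.qVec) := by
        rw [hc, add_sub_cancel_right, smul_smul, inv_mul_cancel₀ hχ, one_smul]
      have hvm : L.vVec ∈ L.qLine ⊔ Submodule.span (ZMod p) {g • L.vVec} := by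
        have := (L.qLine ⊔ Submodule.span (ZMod p) {g • L.vVec}).smul_mem (Dichotomy.chi hζ g)⁻¹
          (Submodule.sub_mem _ (Submodule.mem_sup_right (Submodule.mem_span_singleton_self _))
            (Submodule.smul_mem _ c (Submodule.mem_sup_left hQC)))
        rwa [← e] at this
      exact Submodule.add_mem _ (Submodule.smul_mem _ _ hvm)
        (Submodule.smul_mem _ _ (Submodule.mem_sup_left hQC))

include hζ in
/-- The `p`-torsion of the quotient is an admissible extension. -/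
lemma isAdmissible_Vp (h15 : StepThree) (L : Quot τ (k + 1)) (hst : τ.Stable (k + 1)) :
    ExtCitation.IsAdmissibleExtensionCts p L.Vp L.qLine := by
  have hQC : L.qVec ∈ L.qLine := Submodule.mem_span_singleton_self _
  refine ⟨⟨fun σ x hx => ?_, fun σ x hx => ?_, fun σ x => ?_, L.card_qLine hζ,
    card_torsionBy (Fermat.EC.Line.Δ_overQbar_ne L.hΔ) S.hp.one_le,
    fun ℓ hℓ hℓp B hB σ hσ x => ?_, fun A' hA' => L.exists_local_complement hζ hst hA'⟩, ?_⟩
  · -- the line is stable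
    obtain ⟨b, rfl⟩ := L.mem_qLine.mp hx
    rw [smul_comm, L.smul_qVec]
    exact L.qLine.smul_mem b hQC
  · -- with trivial action
    obtain ⟨b, rfl⟩ := L.mem_qLine.mp hx
    rw [smul_comm, L.smul_qVec]
  · -- cyclotomic action on the quotient
    obtain ⟨a, b, rfl⟩ := L.exists_eq_comb hζ x
    obtain ⟨c, hc⟩ := L.exists_smul_vVec hζ hst σ
    rw [cycloExp_eq hζ σ, smul_add σ, smul_comm σ a, smul_comm σ b, hc, L.smul_qVec]
    rw [show a • (Dichotomy.chi hζ σ • L.vVec + c • L.qVec) + b • L.qVec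
        - Dichotomy.chi hζ σ • (a • L.vVec + b • L.qVec)
        = (a * c + b - Dichotomy.chi hζ σ * b) • L.qVec by module]
    exact L.qLine.smul_mem _ hQC
  · -- unramified away from `p`
    obtain ⟨a, b, rfl⟩ := L.exists_eq_comb hζ x
    have e : σ • L.vVec = L.vVec := Subtype.ext
      (L.v_unramified hζ h15 hst hℓ hℓp hB (isInert_of_mem_inertia hσ))
    rw [smul_add σ, smul_comm σ a, smul_comm σ b, e, L.smul_qVec]
  · -- the action is continuous
    obtain ⟨U, hU, hU'⟩ := Dichotomy.exists_open_fix (L.φ (τ.P (k + 1 + 1)))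
    let K : Subgroup Γℚ :=
      { carrier := {σ | ∀ x : L.Vp, σ • x = x}
        one_mem' := fun x => one_smul _ x
        mul_mem' := fun {a b} ha hb x => by rw [mul_smul, hb x, ha x]
        inv_mem' := fun {a} ha x => by rw [inv_smul_eq_iff, ha x] }
    have hUK : U ≤ K := fun σ hσ x => by
      obtain ⟨a, b, rfl⟩ := L.exists_eq_comb hζ x
      rw [smul_add σ, smul_comm σ a, smul_comm σ b, L.smul_qVec,
        show σ • L.vVec = L.vVec from Subtype.ext (hU' σ hσ)]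
    exact Subgroup.isOpen_mono (H₂ := K) hUK hU

include hζ in
/-- A stable complement of the rational line contains the image of `P (k + 2)`. -/
lemma vVec_mem_complement (L : Quot τ (k + 1)) (hst : τ.Stable (k + 1))
    {C' : Submodule (ZMod p) L.Vp} (hC' : ∀ σ : Γℚ, ∀ x ∈ C', σ • x ∈ C')
    (hcompl : IsCompl L.qLine C') : L.vVec ∈ C' := by
  have hp17 := S.hp17
  have hQC : L.qVec ∈ L.qLine := Submodule.mem_span_singleton_self _
  -- a normalised vector of the complement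
  obtain ⟨b, hw⟩ : ∃ b : ZMod p, L.vVec + b • L.qVec ∈ C' := by
    obtain ⟨c₁, hc₁, c₂, hc₂, e⟩ := Submodule.mem_sup.mp
      (hcompl.sup_eq_top.symm ▸ Submodule.mem_top : L.vVec ∈ L.qLine ⊔ C')
    obtain ⟨b, rfl⟩ := L.mem_qLine.mp hc₁
    refine ⟨-b, ?_⟩
    rwa [neg_smul, ← e, add_comm (b • L.qVec), add_neg_cancel_right]
  obtain ⟨g, hg, hgχ⟩ := exists_inert_chi_ne_one (by omega) hζ S.hA
  have hgv : g • L.vVec = Dichotomy.chi hζ g • L.vVec := by
    obtain ⟨c, hc⟩ := L.exists_smul_vVec hζ hst g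
    obtain ⟨j, e⟩ := L.exists_smul_vVec_eq hζ (Cyclo.inE1_smul S.hA hg (τ.P_mem _))
    rw [e] at hc ⊢
    have h0 : (j - Dichotomy.chi hζ g) • L.vVec = c • L.qVec := by rw [sub_smul, hc]; abel
    have hz : j - Dichotomy.chi hζ g = 0 :=
      L.eq_zero_of_smul_vVec_mem hζ (by rw [h0]; exact L.qLine.smul_mem c hQC)
    rw [sub_eq_zero.mp hz]
  -- `g - χ g` kills `v` and multiplies `b Q` by `1 - χ g ≠ 0`
  have h1 : g • (L.vVec + b • L.qVec) - Dichotomy.chi hζ g • (L.vVec + b • L.qVec) ∈ C' :=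
    C'.sub_mem (hC' g _ hw) (C'.smul_mem _ hw)
  have h2 : g • (L.vVec + b • L.qVec) - Dichotomy.chi hζ g • (L.vVec + b • L.qVec)
      = ((1 - Dichotomy.chi hζ g) * b) • L.qVec := by
    rw [smul_add g, smul_comm g b, hgv, L.smul_qVec]; module
  rw [h2] at h1
  have h3 := Submodule.disjoint_def.mp hcompl.disjoint _ (L.qLine.smul_mem _ hQC) h1
  rw [smul_eq_zero, mul_eq_zero, sub_eq_zero] at h3
  have hb : b = 0 := ((h3.resolve_right (L.qVec_ne_zero hζ)).resolve_left (Ne.symm hgχ))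
  simpa [hb] using hw

include hζ in
/-- **The step**: the vanishing of `Ext` makes the next subgroup stable. -/
theorem stable_succ (h15 : StepThree) (hExt : ExtCitation.ExtVanishingCts p)
    (L : Quot τ (k + 1)) (hst : τ.Stable (k + 1)) : τ.Stable (k + 1 + 1) := by
  obtain ⟨C', hC', hcompl⟩ := hExt L.Vp L.qLine (L.isAdmissible_Vp hζ h15 hst)
  have hvC' := L.vVec_mem_complement hζ hst hC' hcompl
  intro σ
  obtain ⟨c, hc⟩ := L.exists_smul_vVec hζ hst σ
  have hcC' : c • L.qVec ∈ C' := by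
    have := C'.sub_mem (hC' σ _ hvC') (C'.smul_mem (Dichotomy.chi hζ σ) hvC')
    rwa [hc, add_sub_cancel_left] at this
  have hc0 := Submodule.disjoint_def.mp hcompl.disjoint _
    (L.qLine.smul_mem _ (Submodule.mem_span_singleton_self _)) hcC'
  rw [hc0, add_zero] at hc
  have e : σ • L.φ (τ.P (k + 1 + 1)) = (Dichotomy.chi hζ σ).val • L.φ (τ.P (k + 1 + 1)) := by
    have := congrArg Subtype.val hc
    rwa [L.coe_smulV] at this
  obtain ⟨a, ha⟩ := (L.ker (σ • τ.P (k + 1 + 1) - (Dichotomy.chi hζ σ).val • τ.P (k + 1 + 1))).mp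
    (by rw [map_sub, map_nsmul, L.equiv, e, sub_self])
  refine ⟨(Dichotomy.chi hζ σ).val + a * p, ?_⟩
  rw [add_zsmul, mul_smul, natCast_zsmul, natCast_zsmul, τ.P_succ, ← ha]
  abel

end Quot

end Fermat.HT.Mazur
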