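import Fermat.Agent.HT.Mazur.Step
import Fermat.Agent.HT.Mazur.ModularPoint
import Fermat.Agent.HT.Mazur.NearPoint
import Fermat.Agent.HT.Mazur.Duality
import Fermat.Agent.HT.Cusp.Immersion
import Fermat.Agent.HT.Descent.Rank

/-!
# Third step: a point of order `p` is off the identity component at multiplicative primes

`stepThree` proves the statement `StepThree` used by `Step`. At an odd prime `ℓ ≠ p` the reason is
that no such prime exists: the curve would give a rational point of `X₀(p)` (`ModularPoint`)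
reducing to a cusp at `ℓ` (`NearPoint`); some Hecke operator prime to `ℓ` carries its class to a
torsion class (`HT/Descent/Rank`), against the formal immersion at `∞` (`false_of_not_integral`).
-/

set_option autoImplicit false

noncomputable section

open ModularCurve

namespace Fermat.HT.Mazur

open Fermat.FF (OrdGE evalAt)
open Fermat.HT.Cusp (Pt cls)
open Fermat.HT.Descent (AtPHyp exists_annihilator)

local notation "ℚbar" => AlgebraicClosure ℚ

/-- If a rational `z` is outside a place over `ℓ` then `z⁻¹` is divisible by `ℓ` there. -/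
theorem inv_div_mem {A : ValuationSubring ℚbar} {ℓ : ℕ} (hℓ : ℓ.Prime) (hA : A.LiesOverPrime ℓ)
    {z : ℚ} (hz : (z : ℚbar) ∉ A) : (z : ℚbar)⁻¹ / (ℓ : ℚbar) ∈ A := by
  have hden : (ℓ : ℤ) ∣ (z.den : ℤ) := by
    by_contra hd
    refine hz ((A.valuation_le_one_iff _).mp ?_)
    rw [Rat.cast_def, map_div₀, ← Int.cast_natCast z.den,
      Fermat.EC.Val.IsPlace.v_int_eq_one ⟨hℓ, hA⟩ hd, div_one]
    exact (A.valuation_le_one_iff _).mpr (intCast_mem A z.num)
  obtain ⟨d, hd⟩ := hden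
  have hnum : ¬ (ℓ : ℤ) ∣ z.num := fun h =>
    hℓ.ne_one (Nat.eq_one_of_dvd_coprimes z.reduced (Int.natCast_dvd.mp h)
      (Int.natCast_dvd_natCast.mp ⟨d, hd⟩))
  have hl0 : (ℓ : ℚbar) ≠ 0 := Nat.cast_ne_zero.mpr hℓ.ne_zero
  have e : (z : ℚbar)⁻¹ / (ℓ : ℚbar) = (d : ℚbar) / (z.num : ℚbar) := by
    rw [Rat.cast_def, inv_div, ← Int.cast_natCast z.den, hd]
    push_cast
    field_simp
  rw [e, ← A.valuation_le_one_iff, map_div₀, Fermat.EC.Val.IsPlace.v_int_eq_one ⟨hℓ, hA⟩ hnum,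
    div_one]
  exact (A.valuation_le_one_iff _).mpr (intCast_mem A d)

/-- The invariant is not integral at a multiplicative prime. -/
theorem jInv_not_mem {A : ValuationSubring ℚbar} {ℓ : ℕ} (hℓ : ℓ.Prime) (hA : A.LiesOverPrime ℓ)
    {c D : ℤ} (hD0 : D ≠ 0) (hD : (ℓ : ℤ) ∣ D) (hc : ¬ (ℓ : ℤ) ∣ c) :
    (((c : ℚ) ^ 3 / D : ℚ) : ℚbar) ∉ A := by
  intro hm
  obtain ⟨d, rfl⟩ := hD
  have h1 := (A.valuation_le_one_iff _).mpr hm
  push_cast at h1
  rw [map_div₀, map_pow, Fermat.EC.Val.IsPlace.v_int_eq_one ⟨hℓ, hA⟩ hc, one_pow] at h1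
  have hpos : (0 : A.ValueGroup) < A.valuation ((ℓ : ℚbar) * (d : ℚbar)) := by
    rw [zero_lt_iff, _root_.map_ne_zero]
    exact mul_ne_zero (Nat.cast_ne_zero.mpr hℓ.ne_zero)
      (Int.cast_ne_zero.mpr (right_ne_zero_of_mul hD0))
  rw [div_le_one₀ hpos, map_mul] at h1
  exact absurd h1 (not_le.mpr (lt_of_le_of_lt
    (mul_le_of_le_one_right' ((A.valuation_le_one_iff _).mpr (intCast_mem A d))) hA))

/-- Outside `2, 3, 5, 7, 13` a prime is at least `11` and the Eisenstein numerator exceeds `1`. -/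
theorem one_lt_eisensteinNumerator {p : ℕ} (hp : p.Prime)
    (hnot : p ∉ ({2, 3, 5, 7, 13} : Finset ℕ)) : 11 ≤ p ∧ 1 < eisensteinNumerator p := by
  simp only [Finset.mem_insert, Finset.mem_singleton, not_or] at hnot
  obtain ⟨h2, h3, h5, h7, h13⟩ := hnot
  have hp11 : 11 ≤ p := by
    by_contra h
    push Not at h
    interval_cases p <;> first | omega | norm_num at hp
  refine ⟨hp11, ?_⟩
  have hg : Nat.gcd (p - 1) 12 ∣ p - 1 := Nat.gcd_dvd_left _ _
  obtain ⟨m, hm⟩ := hg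
  have hg0 : 0 < Nat.gcd (p - 1) 12 := Nat.gcd_pos_of_pos_right _ (by norm_num)
  have he : eisensteinNumerator p = m := by
    rw [eisensteinNumerator]
    conv_lhs => arg 1; rw [hm]
    exact Nat.mul_div_cancel_left m hg0
  rw [he]
  by_contra hle
  have hm1 : m = 1 := by
    rcases Nat.eq_zero_or_pos m with h0 | h0
    · rw [h0, mul_zero] at hm; omega
    · omega
  rw [hm1, mul_one] at hm
  have hd : p - 1 ∣ 12 := hm ▸ Nat.gcd_dvd_right _ _
  have hp13 : p ≤ 13 := by have := Nat.le_of_dvd (by norm_num) hd; omega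
  interval_cases p <;> omega

/-- **Mazur's theorem at the cusps**, given the behaviour at `p` and a nontrivial Eisenstein
numerator: no rational point of `X₀(p)` has an invariant non-integral at an odd prime `ℓ ≠ p`. -/
theorem false_of_not_integral {p : ℕ} [hp : Fact p.Prime] [NeZero p] (hat : AtPHyp p)
    (hnum : 1 < eisensteinNumerator p) {ℓ : ℕ} (hℓ : ℓ.Prime) (hℓ2 : ℓ ≠ 2) (hℓp : ℓ ≠ p)
    {A : ValuationSubring ℚbar} (hA : A.LiesOverPrime ℓ) {P : Pt p} {x y : ℚ}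
    (h : OrdGE P (Fermat.MC.jL p ℚbar) 0) (hx : evalAt P (Fermat.MC.jL p ℚbar) = (x : ℚbar))
    (h' : OrdGE P (Fermat.MC.jNL p ℚbar) 0) (hy : evalAt P (Fermat.MC.jNL p ℚbar) = (y : ℚbar))
    (hxA : (x : ℚbar) ∉ A) : False := by
  obtain ⟨R, rfl, rfl⟩ := Fermat.HT.Cusp.exists_red (p := p) hℓ hℓp A hA
  -- a rational class near `∞`; some `t` prime to `ℓ` makes it torsion, against formal immersion
  obtain ⟨P', z, hP', hj, hz, hzA, hfix⟩ := exists_near_rational R h h' hx hy hxA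
  obtain ⟨n, hn, hnd⟩ := Nat.exists_prime_and_dvd hnum.ne'
  obtain ⟨t, ht, htor⟩ := exists_annihilator hat hn hnd R.hℓ
  obtain ⟨a, b, hab, hb⟩ := exists_actSeq_not_dvd ht
  obtain ⟨N, hN, hNt⟩ := htor ⟨cls {P'}, fun σ => hfix σ⟩
  refine hb (R.immersion hP' hj ?_ ?_ t hN hNt hab)
  · have := hℓ.two_le; omega
  · rw [(R.tau_eq hP' hj).2, hz]
    exact inv_div_mem R.hℓ R.hA hzA

/-- **Step three**: `StepThree` follows from the behaviour of `J₀(p)` at `p` for `p ≥ 11`. -/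
theorem stepThree (hat : ∀ (p : ℕ) [Fact p.Prime] [NeZero p], 11 ≤ p → AtPHyp p) : StepThree := by
  intro p hp hnot W hΔ Q hfix hQ _ _ h2 _ _ _ ℓ hℓ hℓp hℓd hℓc A hA
  by_cases hℓ2 : ℓ = 2
  · exact h2 A (hℓ2 ▸ hA)
  have := Fact.mk hp
  have : NeZero p := ⟨hp.ne_zero⟩
  obtain ⟨hp11, hnum⟩ := one_lt_eisensteinNumerator hp hnot
  -- the curve gives a point of `X₀(p)` with invariant not integral at `ℓ`
  obtain ⟨P, x, y, hxdef, h, hx, h', hy⟩ :=
    exists_moduli_place p (by omega) W hΔ Q hfix hQ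
  exact (false_of_not_integral (hat p hp11) hnum hℓ hℓ2 hℓp hA h hx h' hy
    (hxdef ▸ jInv_not_mem hℓ hA hΔ hℓd hℓc)).elim

end Fermat.HT.Mazur

end
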