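import Fermat.Agent.HT.Mazur.Divisible
import Mathlib.FieldTheory.KrullTopology
import Mathlib.Tactic.Module

/-!
# The `p`-power torsion of a semistable curve with a Galois cofixed line

`Setup` is the situation to be excluded. `exists_tower` gives generators of the `p`-power torsion:
`P n` generates the `p ^ n`-torsion in the kernel of reduction at a fixed place over `p`, and
together with `T n` it spans the `p ^ n`-torsion. `Step` shows by induction that the subgroup of
`P n` is Galois stable, which `Final` contradicts.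
-/

set_option autoImplicit false

open scoped Classical
open WeierstrassCurve.Affine
open Fermat.EC Fermat.EC.Val Fermat.EC.Red

noncomputable section

namespace Fermat.HT.Mazur

local notation "ℚbar" => AlgebraicClosure ℚ
local notation "Γℚ" => (AlgebraicClosure ℚ ≃ₐ[ℚ] AlgebraicClosure ℚ)

variable {W : WeierstrassCurve ℤ}

/-- The kernel of reduction as a subgroup. -/
def kerRed {A : ValuationSubring ℚbar} {q : ℕ} (h : IsPlace A q) :
    AddSubgroup (overQbar W).Point where
  carrier := {P : (overQbar W).Point | InE1 A q P}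
  add_mem' {P Q} ha hb := InE1.add h (integralAt_overQbar W h) (P := P) (Q := Q) ha hb
  zero_mem' := inE1_zero (A := A) (q := q) (W := overQbar W)
  neg_mem' {P} ha := InE1.neg (P := P) ha

/-- Integral multiples stay in the kernel of reduction. -/
lemma inE1_zsmul {A : ValuationSubring ℚbar} {q : ℕ} (h : IsPlace A q) {P : (overQbar W).Point}
    (hP : InE1 A q P) (k : ℤ) : InE1 A q (k • P) :=
  (kerRed (W := W) h).zsmul_mem (show P ∈ kerRed (W := W) h from hP) k

/-- Differences stay in the kernel of reduction. -/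
lemma inE1_sub {A : ValuationSubring ℚbar} {q : ℕ} (h : IsPlace A q)
    {P Q : (overQbar W).Point} (hP : InE1 A q P) (hQ : InE1 A q Q) : InE1 A q (P - Q) :=
  (kerRed (W := W) h).sub_mem (show P ∈ kerRed (W := W) h from hP) hQ

/-- Galois commutes with integral multiples of points. -/
lemma gal_smul_zsmul (σ : Γℚ) (k : ℤ) (P : (overQbar W).Point) : σ • (k • P) = k • (σ • P) :=
  map_zsmul (Point.map σ.toAlgHom) k P

/-- Galois is additive on points. -/
lemma gal_smul_add (σ : Γℚ) (P Q : (overQbar W).Point) : σ • (P + Q) = σ • P + σ • Q :=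
  map_add (Point.map σ.toAlgHom) P Q

/-- `E[p ^ (n + 1)] → E[p ^ n]` is surjective. -/
lemma exists_torsion_div (hΔ : W.Δ ≠ 0) {p n : ℕ} (hp : p.Prime) {X : (overQbar W).Point}
    (hX : p ^ n • X = 0) : ∃ Y : (overQbar W).Point, p ^ (n + 1) • Y = 0 ∧ p • Y = X := by
  let f : Line.tors W (p ^ (n + 1)) →+ Line.tors W (p ^ n) :=
    { toFun := fun Y => ⟨p • (Y : (overQbar W).Point), by
        rw [Line.mem_tors, ← mul_nsmul', ← pow_succ]; exact Y.2⟩
      map_zero' := Subtype.ext (nsmul_zero p)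
      map_add' := fun a b => Subtype.ext (nsmul_add _ _ p) }
  have : Finite (Line.tors W (p ^ n)) := Nat.finite_of_card_ne_zero (by
    rw [Line.natCard_tors hΔ (Nat.one_le_pow _ _ hp.pos)];
    exact pow_ne_zero _ (pow_ne_zero _ hp.ne_zero))
  have hker : Nat.card f.ker = p ^ 2 := by
    rw [← Line.natCard_tors hΔ hp.one_le]
    refine Nat.card_congr
      { toFun := fun Y => ⟨Y.1.1, congrArg Subtype.val (AddMonoidHom.mem_ker.mp Y.2)⟩
        invFun := fun Y => ⟨⟨Y.1, by rw [Line.mem_tors, pow_succ, mul_nsmul', Y.2, nsmul_zero]⟩,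
          AddMonoidHom.mem_ker.mpr (Subtype.ext Y.2)⟩
        left_inv := fun _ => rfl
        right_inv := fun _ => rfl }
  have h1 := AddSubgroup.card_eq_card_quotient_mul_card_addSubgroup f.ker
  rw [Line.natCard_tors hΔ (Nat.one_le_pow _ _ hp.pos), hker,
    Nat.card_congr (QuotientAddGroup.quotientKerEquivRange f).toEquiv] at h1
  have hr : f.range = ⊤ := AddSubgroup.eq_top_of_card_eq _ (by
    rw [Line.natCard_tors hΔ (Nat.one_le_pow _ _ hp.pos)]
    apply Nat.eq_of_mul_eq_mul_right (pow_pos hp.pos 2)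
    rw [← h1, ← mul_pow, ← pow_succ])
  obtain ⟨Y, hY⟩ := (hr ▸ AddSubgroup.mem_top (⟨X, hX⟩ : Line.tors W (p ^ n)) : _ ∈ f.range)
  exact ⟨Y, Y.2, congrArg Subtype.val hY⟩

/-- A semistable curve with a cofixed line at `p`. -/
structure Setup (W : WeierstrassCurve ℤ) (p : ℕ) : Type where
  /-- A place over `p`. -/
  A : ValuationSubring ℚbar
  /-- The generator of the line. -/
  P₀ : (overQbar W).Point
  /-- The curve is non-singular. -/
  hΔ : W.Δ ≠ 0
  /-- `p` is prime. -/
  hp : p.Prime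
  /-- `p` is at least seventeen. -/
  hp17 : 17 ≤ p
  /-- The place lies over `p`. -/
  hA : IsPlace A p
  /-- Semistability. -/
  hss : ∀ q : ℕ, q.Prime → (q : ℤ) ∣ W.Δ → ¬ (q : ℤ) ∣ W.c₄
  /-- The generator is killed by `p`. -/
  hP : p • P₀ = 0
  /-- The generator is not zero. -/
  hP0 : P₀ ≠ 0
  /-- Galois is trivial on the quotient of `W[p]` by the line. -/
  cofixed : ∀ (σ : Γℚ) (X : (overQbar W).Point), p • X = 0 → ∃ k : ℕ, σ • X - X = k • P₀

variable {p : ℕ}

/-- Galois stabilises the line of `P₀`. -/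
lemma Setup.stab (S : Setup W p) (σ : Γℚ) : ∃ k : ℕ, σ • S.P₀ = k • S.P₀ := by
  obtain ⟨k, hk⟩ := S.cofixed σ S.P₀ S.hP
  exact ⟨k + 1, by rw [succ_nsmul, ← hk, sub_add_cancel]⟩

/-- The line is cyclotomic and is the kernel of reduction. -/
theorem Setup.line [Fact p.Prime] (S : Setup W p) {ζ : ℚbar} (hζ : IsPrimitiveRoot ζ p) :
    (∀ σ : Γℚ, σ • S.P₀ = (Dichotomy.chi hζ σ).val • S.P₀) ∧ InE1 S.A p S.P₀ ∧
      ∀ X : (overQbar W).Point, p • X = 0 → InE1 S.A p X → ∃ a : ℤ, X = a • S.P₀ := by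
  have hp5 : 5 ≤ p := by have := S.hp17; omega
  obtain ⟨σ, hσ, hχ⟩ := exists_inert_chi_ne_one (by have := S.hp17; omega) hζ S.hA
  have hI : ∀ σ : Γℚ, σ • S.P₀ = (Dichotomy.chi hζ σ).val • S.P₀ := by
    rcases Dichotomy.dichotomy S.hΔ hp5 S.hss hζ S.hP S.hP0 S.stab with ⟨h, -⟩ | ⟨-, h⟩
    · exact h
    -- otherwise the quotient would be cyclotomic as well as trivial, so `W[p]` would be the line
    exfalso
    have hall : ∀ X : (overQbar W).Point, p • X = 0 → ∃ k : ℕ, X = k • S.P₀ := by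
      intro X hX
      obtain ⟨k₁, e₁⟩ := h σ X hX
      obtain ⟨k₂, e₂⟩ := S.cofixed σ X hX
      set d := (Dichotomy.chi hζ σ - 1)⁻¹ with hd
      refine ⟨(d * ((k₂ : ZMod p) - k₁)).val, ?_⟩
      set v : Line.tors W p := ⟨X, hX⟩
      set u : Line.tors W p := ⟨S.P₀, S.hP⟩
      have e : (Dichotomy.chi hζ σ - 1) • v = ((k₂ : ZMod p) - k₁) • u := by
        apply Subtype.ext
        rw [sub_smul, sub_smul, one_smul, AddSubgroup.coe_sub, AddSubgroup.coe_sub,
          Dichotomy.coe_smulT, Dichotomy.coe_smulT, Dichotomy.coe_smulT,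
          Cyclo.natCast_val_nsmul S.hP, Cyclo.natCast_val_nsmul S.hP, ← e₁, ← e₂]
        simp only [v]
        abel
      have := congrArg (d • ·) e
      simp only [smul_smul] at this
      rw [hd, inv_mul_cancel₀ (sub_ne_zero.mpr hχ), one_smul] at this
      have := congrArg Subtype.val this
      rw [Dichotomy.coe_smulT] at this
      exact this
    have hle : Nat.card (Line.tors W p) ≤ Nat.card (ZMod p) :=
      Nat.card_le_card_of_surjective
        (fun a : ZMod p => (⟨a.val • S.P₀, by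
          rw [Line.mem_tors, ← mul_nsmul', mul_comm, mul_nsmul', S.hP, nsmul_zero]⟩ :
            Line.tors W p)) fun v => by
        obtain ⟨k, hk⟩ := hall v v.2
        exact ⟨(k : ZMod p), Subtype.ext (by
          change (k : ZMod p).val • S.P₀ = _
          rw [Cyclo.natCast_val_nsmul S.hP]; exact hk.symm)⟩
    rw [Line.natCard_tors S.hΔ S.hp.one_le, Nat.card_zmod, sq] at hle
    have := S.hp.two_le
    nlinarith
  -- inertia with `χ σ ≠ 1` moves `P₀` by a nonzero multiple, which lies in the kernel of reduction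
  have hE : InE1 S.A p S.P₀ := by
    have hR := Dichotomy.smul_sub_mem_kernel S.hΔ hp5 S.hA (S.hss p S.hp) hσ S.hP
    rw [hI σ] at hR
    set u : Line.tors W p := ⟨S.P₀, S.hP⟩
    have e : u = (Dichotomy.chi hζ σ - 1)⁻¹ • ((Dichotomy.chi hζ σ - 1) • u) := by
      rw [smul_smul, inv_mul_cancel₀ (sub_ne_zero.mpr hχ), one_smul]
    have e' := congrArg Subtype.val e
    rw [Dichotomy.coe_smulT, sub_smul, one_smul, AddSubgroup.coe_sub, Dichotomy.coe_smulT] at e'
    rw [show S.P₀ = (u : (overQbar W).Point) from rfl, e']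
    rw [← natCast_zsmul]
    exact inE1_zsmul S.hA hR _
  -- the torsion in the kernel of reduction is a single line, hence that of `P₀`
  refine ⟨hI, hE, fun X hX hX1 => ?_⟩
  obtain ⟨P₁, hP₁, -, -, hgen, -⟩ :=
    Line.exists_line S.hΔ S.hp hp5 S.hA (S.hss p S.hp) S.hP S.hP0 S.stab
  obtain ⟨i, hi⟩ := hgen _ hX hX1
  obtain ⟨j, hj⟩ := hgen _ S.hP hE
  have hco : IsCoprime (j : ℤ) (p : ℤ) :=
    ((Nat.prime_iff_prime_int.mp S.hp).coprime_iff_not_dvd.mpr fun hd => S.hP0 (by
      obtain ⟨c, rfl⟩ := Int.natCast_dvd_natCast.mp hd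
      rw [hj, mul_comm, mul_nsmul', hP₁, nsmul_zero])).symm
  obtain ⟨u, v, huv⟩ := hco
  refine ⟨i * u, ?_⟩
  rw [hi, hj, ← natCast_zsmul P₁ i, ← natCast_zsmul P₁ j, smul_smul]
  conv_lhs => rw [show (i : ℤ) = (i * u * j : ℤ) + i * v * p by linear_combination (-(i : ℤ)) * huv]
  rw [add_zsmul, mul_smul ((i : ℤ) * v) (p : ℤ), natCast_zsmul P₁ p, hP₁, zsmul_zero, add_zero]

/-- Compatible generators of the `p ^ n`-torsion. -/
structure Tower {W : WeierstrassCurve ℤ} {p : ℕ} (S : Setup W p) : Type where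
  /-- Generators of the part in the kernel of reduction. -/
  P : ℕ → (overQbar W).Point
  /-- Generators of a complement of that part in the `p ^ n`-torsion. -/
  T : ℕ → (overQbar W).Point
  /-- The generator of level zero is zero. -/
  P_zero : P 0 = 0
  /-- The generator of level one is the marked point. -/
  P_one : P 1 = S.P₀
  /-- Multiplication by `p` lowers the level of the generators by one. -/
  P_succ : ∀ n, p • P (n + 1) = P n
  /-- The generators reduce to zero. -/
  P_mem : ∀ n, InE1 S.A p (P n)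
  /-- The complement of level zero is zero. -/
  T_zero : T 0 = 0
  /-- Multiplication by `p` lowers the level of the complements by one. -/
  T_succ : ∀ n, p • T (n + 1) = T n
  /-- The complement of level one is off the line. -/
  T_one : ∀ a : ℤ, T 1 ≠ a • S.P₀

/-- A tower of generators exists. -/
theorem exists_tower [Fact p.Prime] (S : Setup W p) {ζ : ℚbar} (hζ : IsPrimitiveRoot ζ p) :
    Nonempty (Tower S) := by
  obtain ⟨-, hE, -⟩ := S.line hζ
  have hdiv : ∀ X : (overQbar W).Point, ∃ Y, InE1 S.A p X → InE1 S.A p Y ∧ p • Y = X := fun X => by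
    by_cases hX : InE1 S.A p X
    · obtain ⟨Y, hY⟩ := exists_nsmul_eq_of_inE1 S.hΔ S.hp (by have := S.hp17; omega) S.hA
        (S.hss p S.hp) hX
      exact ⟨Y, fun _ => hY⟩
    · exact ⟨0, fun h => absurd h hX⟩
  -- divide `P₀` repeatedly inside the kernel of reduction
  choose f hf using hdiv
  let P' : ℕ → (overQbar W).Point := fun n => Nat.rec S.P₀ (fun _ X => f X) n
  have hP' : ∀ n, InE1 S.A p (P' n) := fun n => by
    induction n with
    | zero => exact hE
    | succ n ih => exact (hf _ ih).1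
  -- choose `T 1` off the line and divide it repeatedly in the torsion
  obtain ⟨T1, hT1, hT1'⟩ : ∃ T : (overQbar W).Point, p • T = 0 ∧ ∀ a : ℤ, T ≠ a • S.P₀ := by
    by_contra hc
    push Not at hc
    have hle : Nat.card (Line.tors W p) ≤ Nat.card (ZMod p) :=
      Nat.card_le_card_of_surjective
        (fun a : ZMod p => (⟨a.val • S.P₀, by
          rw [Line.mem_tors, ← mul_nsmul', mul_comm, mul_nsmul', S.hP, nsmul_zero]⟩ :
            Line.tors W p)) fun v => by
        obtain ⟨k, hk⟩ := hc v v.2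
        refine ⟨(k : ZMod p), Subtype.ext ?_⟩
        change (k : ZMod p).val • S.P₀ = _
        rw [hk, ← natCast_zsmul, ZMod.val_intCast]
        conv_rhs => rw [← Int.emod_add_ediv_mul k p, add_zsmul, mul_smul,
          natCast_zsmul, S.hP, zsmul_zero, add_zero]
    rw [Line.natCard_tors S.hΔ S.hp.one_le, Nat.card_zmod, sq] at hle
    have := S.hp.two_le
    nlinarith
  have hTdiv : ∀ (n : ℕ) (X : (overQbar W).Point), ∃ Y : (overQbar W).Point,
      p ^ n • X = 0 → p ^ (n + 1) • Y = 0 ∧ p • Y = X := fun n X => by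
    by_cases hX : p ^ n • X = 0
    · obtain ⟨Y, hY⟩ := exists_torsion_div S.hΔ S.hp hX
      exact ⟨Y, fun _ => hY⟩
    · exact ⟨0, fun h => absurd h hX⟩
  choose g hg using hTdiv
  let T' : ℕ → (overQbar W).Point := fun n => Nat.rec T1 (fun m X => g (m + 1) X) n
  have hT' : ∀ n, p ^ (n + 1) • T' n = 0 := fun n => by
    induction n with
    | zero => rw [Nat.zero_add, pow_one]; exact hT1
    | succ n ih => exact (hg _ _ ih).1
  exact ⟨{ P := fun n => match n with | 0 => 0 | n + 1 => P' n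
           T := fun n => match n with | 0 => 0 | n + 1 => T' n
           P_zero := rfl
           P_one := rfl
           P_succ := fun n => match n with
             | 0 => S.hP
             | n + 1 => (hf _ (hP' n)).2
           P_mem := fun n => match n with
             | 0 => inE1_zero
             | n + 1 => hP' n
           T_zero := rfl
           T_succ := fun n => match n with
             | 0 => hT1
             | n + 1 => (hg _ _ (hT' n)).2
           T_one := hT1' }⟩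

namespace Tower

variable {S : Setup W p} (τ : Tower S)

/-- `p ^ n` times `P (n + j)` is `P j`. -/
lemma pow_P (j : ℕ) : ∀ n, p ^ n • τ.P (n + j) = τ.P j
  | 0 => by rw [pow_zero, one_nsmul, Nat.zero_add]
  | n + 1 => by
    rw [pow_succ, mul_nsmul', show n + 1 + j = n + j + 1 by omega, τ.P_succ, pow_P j n]

/-- `p ^ n` times `T (n + j)` is `T j`. -/
lemma pow_T (j : ℕ) : ∀ n, p ^ n • τ.T (n + j) = τ.T j
  | 0 => by rw [pow_zero, one_nsmul, Nat.zero_add]
  | n + 1 => by
    rw [pow_succ, mul_nsmul', show n + 1 + j = n + j + 1 by omega, τ.T_succ, pow_T j n]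

/-- `P n` is killed by `p ^ n`. -/
lemma tors_P (n : ℕ) : p ^ n • τ.P n = 0 := by
  have := τ.pow_P 0 n
  rwa [Nat.add_zero, τ.P_zero] at this

/-- `T n` is killed by `p ^ n`. -/
lemma tors_T (n : ℕ) : p ^ n • τ.T n = 0 := by
  have := τ.pow_T 0 n
  rwa [Nat.add_zero, τ.T_zero] at this

/-- `b` times `T n` lies in the kernel of reduction only for `b` divisible by `p ^ n`. -/
lemma dvd_of_T [Fact p.Prime] {ζ : ℚbar} (hζ : IsPrimitiveRoot ζ p) {n : ℕ} {b : ℤ}
    (hb : InE1 S.A p (b • τ.T n)) : (p : ℤ) ^ n ∣ b := by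
  obtain ⟨-, -, hgen⟩ := S.line hζ
  have hT1 : p • τ.T 1 = 0 := by simpa using τ.tors_T 1
  have base : ∀ c : ℤ, InE1 S.A p (c • τ.T 1) → (p : ℤ) ∣ c := by
    intro c hc
    by_contra hd
    obtain ⟨u, v, huv⟩ := ((Nat.prime_iff_prime_int.mp S.hp).coprime_iff_not_dvd.mpr hd).symm
    obtain ⟨a, ha⟩ := hgen (τ.T 1) hT1 (by
      have e : τ.T 1 = u • (c • τ.T 1) := by
        conv_lhs => rw [← one_zsmul (τ.T 1), ← huv]
        rw [add_zsmul, mul_smul v, natCast_zsmul, hT1, zsmul_zero, add_zero, mul_smul]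
      rw [e]
      exact inE1_zsmul S.hA hc u)
    exact τ.T_one a ha
  induction n generalizing b with
  | zero => simp
  | succ n ih =>
    have h1 : InE1 S.A p (b • τ.T n) := by
      rw [← τ.T_succ n, ← natCast_zsmul (τ.T (n + 1)) p, smul_comm]
      exact inE1_zsmul S.hA hb _
    obtain ⟨c, rfl⟩ := ih h1
    rw [pow_succ]
    refine mul_dvd_mul_left _ (base c ?_)
    have : c • τ.T 1 = ((p : ℤ) ^ n * c) • τ.T (n + 1) := by
      rw [mul_comm, mul_smul, ← Nat.cast_pow, natCast_zsmul, τ.pow_T 1 n]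
    rw [this]
    exact hb

/-- `a` times `P n` vanishes only for `a` divisible by `p ^ n`. -/
lemma dvd_of_P [Fact p.Prime] {n : ℕ} {a : ℤ} (ha : a • τ.P n = 0) : (p : ℤ) ^ n ∣ a := by
  induction n generalizing a with
  | zero => simp
  | succ n ih =>
    have h1 : a • τ.P n = 0 := by
      rw [← τ.P_succ n, ← natCast_zsmul (τ.P (n + 1)) p, smul_comm, ha, zsmul_zero]
    obtain ⟨c, rfl⟩ := ih h1
    rw [pow_succ]
    refine mul_dvd_mul_left _ ?_
    have h2 : c • S.P₀ = 0 := by
      rw [← τ.P_one, ← τ.pow_P 1 n, ← natCast_zsmul (τ.P (n + 1)) (p ^ n), smul_smul,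
        mul_comm c, Nat.cast_pow, ha]
    have h3 := addOrderOf_dvd_iff_zsmul_eq_zero.mpr h2
    rwa [addOrderOf_eq_prime S.hP S.hP0] at h3

/-- `P n`, `T n` span the `p ^ n`-torsion. -/
lemma decomp [Fact p.Prime] {n : ℕ}
    {X : (overQbar W).Point} (hX : p ^ n • X = 0) :
    ∃ a b : ℤ, X = a • τ.P n + b • τ.T n := by
  induction n generalizing X with
  | zero => exact ⟨0, 0, by simpa using hX⟩
  | succ n ih =>
    obtain ⟨a, b, e⟩ := ih (X := p • X) (by rw [← mul_nsmul', ← pow_succ]; exact hX)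
    set Y := X - a • τ.P (n + 1) - b • τ.T (n + 1) with hY
    have hYp : p • Y = 0 := by
      rw [hY, nsmul_sub, nsmul_sub, smul_comm p a, smul_comm p b, τ.P_succ, τ.T_succ, e]
      abel
    have hu : (⟨S.P₀, S.hP⟩ : Line.tors W p) ≠ 0 := fun e => S.hP0 (congrArg Subtype.val e)
    have hT1 : p • τ.T 1 = 0 := by simpa using τ.tors_T 1
    obtain ⟨ε, hε⟩ := Dichotomy.exists_pair_equiv S.hΔ hu (v := ⟨τ.T 1, hT1⟩) fun c e => by
      have e' := congrArg Subtype.val e
      rw [Dichotomy.coe_smulT, ← natCast_zsmul] at e'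
      exact τ.T_one _ e'
    obtain ⟨⟨c, d⟩, hcd⟩ := ε.surjective ⟨Y, hYp⟩
    rw [hε] at hcd
    have hcd' : c.val • τ.T 1 + d.val • S.P₀ = Y := by
      have := congrArg Subtype.val hcd
      rwa [AddSubgroup.coe_add, Dichotomy.coe_smulT, Dichotomy.coe_smulT] at this
    refine ⟨a + (d.val * p ^ n : ℕ), b + (c.val * p ^ n : ℕ), ?_⟩
    rw [add_zsmul, add_zsmul, natCast_zsmul, natCast_zsmul, mul_nsmul', mul_nsmul', τ.pow_P 1 n,
      τ.pow_T 1 n, τ.P_one]
    rw [hY] at hcd'
    rw [show a • τ.P (n + 1) + d.val • S.P₀ + (b • τ.T (n + 1) + c.val • τ.T 1) =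
      (c.val • τ.T 1 + d.val • S.P₀) + a • τ.P (n + 1) + b • τ.T (n + 1) by abel, hcd']
    abel

/-- The `p ^ n`-torsion in the kernel of reduction is generated by `P n`. -/
lemma of_inE1 [Fact p.Prime] {ζ : ℚbar} (hζ : IsPrimitiveRoot ζ p) {n : ℕ}
    {X : (overQbar W).Point} (hX : p ^ n • X = 0) (hX1 : InE1 S.A p X) :
    ∃ a : ℤ, X = a • τ.P n := by
  obtain ⟨a, b, e⟩ := τ.decomp hX
  have hb : InE1 S.A p (b • τ.T n) := by
    have : b • τ.T n = X - a • τ.P n := by rw [e]; abel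
    rw [this]
    exact inE1_sub S.hA hX1 (inE1_zsmul S.hA (τ.P_mem n) a)
  obtain ⟨c, rfl⟩ := τ.dvd_of_T hζ hb
  refine ⟨a, ?_⟩
  rw [e, mul_comm, mul_smul, ← Nat.cast_pow, natCast_zsmul, τ.tors_T, zsmul_zero, add_zero]

/-- The cyclic subgroup generated by `P n` is Galois stable. -/
def Stable (n : ℕ) : Prop := ∀ σ : Γℚ, ∃ a : ℤ, σ • τ.P n = a • τ.P n

/-- The trivial subgroup is stable. -/
lemma stable_zero : τ.Stable 0 := fun σ => ⟨1, by rw [one_zsmul, τ.P_zero, gal_smul_zero]⟩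

/-- The coefficient of `T n` in a combination with `P n` is well defined modulo `p ^ n`. -/
lemma coeff_T_unique [Fact p.Prime] {ζ : ℚbar} (hζ : IsPrimitiveRoot ζ p) {n : ℕ}
    {a b a' b' : ℤ} (e : a • τ.P n + b • τ.T n = a' • τ.P n + b' • τ.T n) :
    (b : ZMod (p ^ n)) = b' := by
  rw [ZMod.intCast_eq_intCast_iff_dvd_sub, Nat.cast_pow]
  apply τ.dvd_of_T hζ
  have : (b' - b) • τ.T n = (a - a') • τ.P n := by
    have e' := sub_eq_zero.mpr e.symm
    rw [← sub_eq_zero, ← e']
    module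
  rw [this]
  exact inE1_zsmul S.hA (τ.P_mem n) _

/-- Two steps of inertia move `T n` into the kernel of reduction, so if `b` is the coefficient of
`T n` in `σ • T n` for `σ` in inertia then `p ^ n` divides `(b - 1) ^ 2`. -/
lemma dvd_sub_one_sq [Fact p.Prime] {ζ : ℚbar} (hζ : IsPrimitiveRoot ζ p) {n ℓ : ℕ} (hℓ : ℓ.Prime)
    {B : ValuationSubring ℚbar} (hB : IsPlace B ℓ) (hBp : ℓ = p → B = S.A) {σ : Γℚ}
    (hσ : σ ∈ B.inertiaSubgroupIn ℚ) {a b s : ℤ} (hT : σ • τ.T n = a • τ.P n + b • τ.T n)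
    (hP : σ • τ.P n = s • τ.P n) : (p : ℤ) ^ n ∣ (b - 1) ^ 2 := by
  have hodd : Odd (p ^ n) := Odd.pow (S.hp.odd_of_ne_two (by have := S.hp17; omega))
  have hσ' := isInert_of_mem_inertia hσ
  have hf1 : InE0 B ℓ (σ • τ.T n - τ.T n) :=
    smul_sub_inE0_odd hB hσ' S.hΔ (S.hss ℓ hℓ) hodd (τ.tors_T n)
  have hf2 : InE1 B ℓ (σ • (σ • τ.T n - τ.T n) - (σ • τ.T n - τ.T n)) :=
    smul_sub_inE1 W hB hσ' hf1
  set Z := σ • (σ • τ.T n - τ.T n) - (σ • τ.T n - τ.T n) with hZ
  have hZp : p ^ n • Z = 0 := nsmul_gal_sub W (nsmul_gal_sub W (τ.tors_T n))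
  have hZ1 : InE1 S.A p Z := by
    by_cases hℓp : ℓ = p
    · obtain rfl := hBp hℓp
      subst hℓp
      exact hf2
    · rw [eq_zero_of_nsmul_eq_zero hB (integralAt_overQbar W hB) hf2 (n := p ^ n) (fun hd =>
        hℓp ((Nat.prime_dvd_prime_iff_eq hℓ S.hp).mp (hℓ.dvd_of_dvd_pow hd))) hZp]
      exact inE1_zero
  have eZ : Z = (a * s + b * a - 2 * a) • τ.P n + ((b - 1) ^ 2) • τ.T n := by
    rw [hZ, gal_smul_sub, hT, gal_smul_add, gal_smul_zsmul, gal_smul_zsmul, hP, hT, zsmul_add]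
    module
  apply τ.dvd_of_T hζ
  rw [show ((b - 1) ^ 2) • τ.T n = Z - (a * s + b * a - 2 * a) • τ.P n by rw [eZ]; abel]
  exact inE1_sub S.hA hZ1 (inE1_zsmul S.hA (τ.P_mem n) _)

/-- Galois acts trivially on `E[p ^ n]` modulo the stable subgroup. -/
theorem quot_trivial [Fact p.Prime] {ζ : ℚbar} (hζ : IsPrimitiveRoot ζ p) {n : ℕ}
    (h2 : τ.Stable (n + n)) (σ : Γℚ) {X : (overQbar W).Point} (hX : p ^ n • X = 0) :
    ∃ a : ℤ, σ • X - X = a • τ.P n := by
  set N := n + n with hN
  have hT : ∀ σ : Γℚ, ∃ a b : ℤ, σ • τ.T N = a • τ.P N + b • τ.T N := fun σ =>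
    τ.decomp (by rw [← gal_smul_nsmul, τ.tors_T, gal_smul_zero])
  choose α β hαβ using hT
  choose s hs using h2
  -- the coefficient of `T N` in `σ • T N` is well defined, hence a character modulo `p ^ N`
  have uniq : ∀ {a b a' b' : ℤ}, a • τ.P N + b • τ.T N = a' • τ.P N + b' • τ.T N →
      (b : ZMod (p ^ N)) = b' := τ.coeff_T_unique hζ
  let d : Γℚ →* ZMod (p ^ N) :=
    { toFun := fun σ => (β σ : ZMod (p ^ N))
      map_one' := by
        have e : α 1 • τ.P N + β 1 • τ.T N = (0 : ℤ) • τ.P N + (1 : ℤ) • τ.T N := by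
          rw [← hαβ 1, one_smul, zero_zsmul, one_zsmul, zero_add]
        simpa using uniq e
      map_mul' := fun σ σ' => by
        have e : (σ * σ') • τ.T N
            = (α σ' * s σ + β σ' * α σ) • τ.P N + (β σ' * β σ) • τ.T N := by
          rw [mul_smul, hαβ σ', gal_smul_add, gal_smul_zsmul, gal_smul_zsmul, hs σ, hαβ σ,
            zsmul_add]
          module
        have := uniq ((hαβ (σ * σ')).symm.trans e)
        rw [this]
        push_cast
        ring }
  let c : Γℚ →* (ZMod (p ^ n))ˣ :=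
    ((ZMod.castHom (pow_dvd_pow p (Nat.le_add_right n n)) (ZMod (p ^ n))).toMonoidHom.comp
      d).toHomUnits
  have hc : ∀ σ : Γℚ, (c σ : ZMod (p ^ n)) = (β σ : ZMod (p ^ n)) := fun σ => by
    change (ZMod.castHom (pow_dvd_pow p (Nat.le_add_right n n)) (ZMod (p ^ n)))
      ((β σ : ZMod (p ^ N))) = _
    rw [map_intCast]
  -- its reduction `c` modulo `p ^ n` is unramified everywhere, hence trivial
  have htriv : ∀ σ, c σ = 1 := by
    refine Galois.eq_one_of_forall_inertia c ?_ fun ℓ hℓ => ?_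
    · obtain ⟨U, hU, hU'⟩ := Dichotomy.exists_open_fix (τ.T N)
      refine Subgroup.isOpen_mono (H₁ := U) (fun σ hσ => ?_) hU
      refine Units.ext ?_
      have e : α σ • τ.P N + β σ • τ.T N = (0 : ℤ) • τ.P N + (1 : ℤ) • τ.T N := by
        rw [← hαβ σ, hU' σ hσ, zero_zsmul, one_zsmul, zero_add]
      have := uniq e
      rw [hc, Units.val_one]
      have := congrArg (ZMod.castHom (pow_dvd_pow p (Nat.le_add_right n n)) (ZMod (p ^ n))) this
      rwa [map_intCast, map_intCast, Int.cast_one] at this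
    · obtain ⟨B, hB, hBp⟩ : ∃ B : ValuationSubring ℚbar, IsPlace B ℓ ∧ (ℓ = p → B = S.A) := by
        by_cases hℓp : ℓ = p
        · subst hℓp; exact ⟨S.A, S.hA, fun _ => rfl⟩
        · obtain ⟨B, hB⟩ := Fermat.CFT.exists_place hℓ
          exact ⟨B, ⟨hℓ, hB⟩, fun e => absurd e hℓp⟩
      refine ⟨B, hB.2, fun σ hσ => ?_⟩
      -- `(β - 1) ^ 2` is divisible by `p ^ N`
      have hdvd := τ.dvd_sub_one_sq hζ hℓ hB hBp hσ (hαβ σ) (hs σ)
      refine Units.ext ?_
      rw [hc, Units.val_one, ← Int.cast_one, ZMod.intCast_eq_intCast_iff_dvd_sub, Nat.cast_pow,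
        dvd_sub_comm]
      rw [hN, ← two_mul, mul_comm, pow_mul] at hdvd
      exact (Int.pow_dvd_pow_iff two_ne_zero).mp hdvd
  -- so `σ` moves every `p ^ n`-torsion point by a multiple of `P n`
  obtain ⟨u, v, rfl⟩ := τ.decomp hX
  obtain ⟨w, hw⟩ : ∃ w : ℤ, β σ - 1 = (p : ℤ) ^ n * w := by
    have := congrArg Units.val (htriv σ)
    rw [hc, Units.val_one, ← Int.cast_one, ZMod.intCast_eq_intCast_iff_dvd_sub, Nat.cast_pow,
      dvd_sub_comm] at this
    exact this
  refine ⟨u * s σ + v * α σ - u, ?_⟩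
  have e1 : σ • τ.P n = s σ • τ.P n := by
    rw [← τ.pow_P n n, gal_smul_nsmul, hs σ, smul_comm]
  have e2 : σ • τ.T n = α σ • τ.P n + β σ • τ.T n := by
    rw [← τ.pow_T n n, gal_smul_nsmul, hαβ σ, nsmul_add, smul_comm, τ.pow_P n n, smul_comm,
      τ.pow_T n n]
  have e3 : β σ • τ.T n = τ.T n := by
    rw [show β σ = 1 + w * (p : ℤ) ^ n by linear_combination hw, add_zsmul, one_zsmul, mul_smul,
      ← Nat.cast_pow, natCast_zsmul, τ.tors_T, zsmul_zero, add_zero]
  rw [gal_smul_add, gal_smul_zsmul, gal_smul_zsmul, e1, e2, e3, zsmul_add]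
  module

end Tower

end Fermat.HT.Mazur
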